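/-
P-GATEWAY (c), helper37: the frozen statement S18 (injectivity of the GIVEN reduction map on
prime-to-`ℓ` torsion) from two inputs at level `N`:

* `Fermat.Agent.Gateway.Kummer.KummerRedInj N A m` (helper47's (C0): a function whose divisor is
  divisible by `m` and whose reduction is `1` is a constant times an `m`-th power);
* `ConstOfOrdZeroC k N`: a nonzero element of `modularFunctionFieldFullC k N` without zeros and
  poles is a constant.

The reduction map `r` on places is ARBITRARY: only the two properties packaged in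
`ReductionInputsAlong` are used (`IsPlaceReductionAlong` on integral principal divisors and
`PrincipalGeneratedByIntegral`).
-/
import Fermat.Agent.Gateway.Kummer.Final
import Fermat.Agent.S24.PlacesDedekind
import Fermat.Prelude.Def_ModularCurve_ReductionModL

set_option autoImplicit false

noncomputable section

namespace Fermat.Agent.Gateway.S18Glue

open ModularCurve AlgebraicCurve HahnSeries Fermat.Agent.Gateway.Kummer

/-- a nonzero function on the reduced curve without zeros and poles is constant -/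
def ConstOfOrdZeroC (k : Type*) [Field k] (N : ℕ) : Prop :=
  ∀ f : modularFunctionFieldFullC k N, f ≠ 0 →
    (∀ Q : Place k (modularFunctionFieldFullC k N), Q.ord f = 0) →
    ∃ c : k, f = algebraMap k (modularFunctionFieldFullC k N) c

section RedRelMore

variable {L : Type*} [Field L] {A : ValuationSubring L} {k : Type*} [Field k] {π : A →+* k}
variable {F : IntermediateField L (LaurentSeries L)}

theorem redRel_zero : RedRel A π F 0 0 :=
  ⟨0, 1, by rw [map_zero]; exact F.zero_mem, by rw [map_one]; exact F.one_mem,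
    by rw [map_one]; exact one_ne_zero, by simp, by simp⟩

theorem redRel_add {u v : LaurentSeries L} {ub vb : LaurentSeries k} (hu : RedRel A π F u ub)
    (hv : RedRel A π F v vb) : RedRel A π F (u + v) (ub + vb) := by
  obtain ⟨y₁, y₂, h1, h2, h3, h4, h5⟩ := hu
  obtain ⟨z₁, z₂, g1, g2, g3, g4, g5⟩ := hv
  refine ⟨y₁ * z₂ + z₁ * y₂, y₂ * z₂, ?_, by rw [map_mul]; exact F.mul_mem h2 g2,
    by rw [map_mul]; exact mul_ne_zero h3 g3, ?_, ?_⟩
  · rw [map_add, map_mul, map_mul]
    exact F.add_mem (F.mul_mem h1 g2) (F.mul_mem g1 h2)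
  · rw [map_add, map_mul, map_mul, map_mul, ← h4, ← g4]; ring
  · rw [map_add, map_mul, map_mul, map_mul, ← h5, ← g5]; ring

theorem redRel_const (c : A) :
    RedRel A π F (algebraMap L (LaurentSeries L) (c : L))
      (algebraMap k (LaurentSeries k) (π c)) := by
  refine ⟨HahnSeries.single 0 c, 1, ?_, by rw [map_one]; exact F.one_mem,
    by rw [map_one]; exact one_ne_zero, ?_, ?_⟩
  · rw [coeffMap_single]
    have : HahnSeries.single (0 : ℤ) (A.subtype c) = algebraMap L (LaurentSeries L) (c : L) :=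
      (algebraMap_laurentSeries_eq_single L (c : L)).symm
    rw [this]
    exact F.algebraMap_mem _
  · rw [map_one, mul_one, coeffMap_single, algebraMap_laurentSeries_eq_single]
    rfl
  · rw [map_one, mul_one, coeffMap_single, algebraMap_laurentSeries_eq_single]

end RedRelMore

section Lift

variable {L : Type*} [Field L] [Algebra ℚ L] (A : ValuationSubring L) {k : Type*} [Field k]
  (π : A →+* k) (N : ℕ) [NeZero N]

theorem redRel_generator {d : ℕ} [NeZero d] (hd : d ∣ N) :
    RedRel A π (FF L N) (qExpand L d (jqModC L)) (qExpand k d (jqModC k)) := by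
  have e1 : coeffMap A.subtype (qExpand A d (jqModC A)) = qExpand L d (jqModC L) := by
    rw [Fermat.Agent.Gateway.Kummer.coeffMap_qExpand, coeffMap_jqModC]
  have e2 : coeffMap π (qExpand A d (jqModC A)) = qExpand k d (jqModC k) := by
    rw [Fermat.Agent.Gateway.Kummer.coeffMap_qExpand, coeffMap_jqModC]
  have hmem : qExpand L d (jqModC L) ∈ FF L N := by
    have h0 : qExpand ℚ d (jqModC ℚ) ∈ modularFunctionFieldFull N := by
      rw [← modularFunctionFieldFullC_rat]
      exact jqModCd_mem_full ℚ N hd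
    have h1 := coeffEmb_mem_laurentBaseChange L h0
    have e3 : coeffEmb L (qExpand ℚ d (jqModC ℚ)) = qExpand L d (jqModC L) := by
      rw [coeffEmb, Fermat.Agent.Gateway.Kummer.coeffMap_qExpand, coeffMap_jqModC]
    rwa [e3] at h1
  refine ⟨qExpand A d (jqModC A), 1, by rw [e1]; exact hmem, by rw [map_one]; exact (FF L N).one_mem,
    by rw [map_one]; exact one_ne_zero, by rw [e1, map_one, mul_one], by rw [e2, map_one, mul_one]⟩

/-- every element of the function field in characteristic `ℓ` is the reduction of a function -/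
theorem exists_redRel (hπ : Function.Surjective π) {wb : LaurentSeries k}
    (hw : wb ∈ modularFunctionFieldFullC k N) :
    ∃ w : LaurentSeries L, RedRel A π (FF L N) w wb := by
  rw [modularFunctionFieldFullC] at hw
  induction hw using IntermediateField.adjoin_induction with
  | mem x hx =>
    obtain ⟨d, hne, hd, rfl⟩ := hx
    exact ⟨_, redRel_generator A π N hd⟩
  | algebraMap c =>
    obtain ⟨a, rfl⟩ := hπ c
    exact ⟨_, redRel_const a⟩
  | add x y _ _ hx hy =>
    obtain ⟨u, hu⟩ := hx
    obtain ⟨v, hv⟩ := hy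
    exact ⟨u + v, redRel_add hu hv⟩
  | inv x _ hx =>
    obtain ⟨u, hu⟩ := hx
    by_cases h0 : x = 0
    · subst h0
      rw [inv_zero]
      exact ⟨0, redRel_zero⟩
    · exact ⟨u⁻¹, hu.inv h0⟩
  | mul x y _ _ hx hy =>
    obtain ⟨u, hu⟩ := hx
    obtain ⟨v, hv⟩ := hy
    exact ⟨u * v, hu.mul hv⟩

end Lift

section Closure

variable {L : Type*} [Field L] [Algebra ℚ L] {A : ValuationSubring L} {k : Type*} [Field k]
  {π : A →+* k} {N : ℕ}
variable {r : Place L (laurentBaseChange L (modularFunctionFieldFull N)) →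
  Place k (modularFunctionFieldFullC k N)}

theorem coeffMap_subtype_ne_zero_of_red_ne_zero {y : LaurentSeries A} (h : coeffMap π y ≠ 0) :
    coeffMap A.subtype y ≠ 0 := by
  intro h0
  have : y = 0 := coeffMap_subtype_injective A (by rw [h0, map_zero])
  exact h (by rw [this, map_zero])

/-- every element of the closure of the integral principal divisors is the divisor of a quotient of
two integral functions, compatibly with `r`. -/
theorem exists_frac_of_mem_closure (hr : IsPlaceReductionAlong A π N r)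
    {E : Divisor L (laurentBaseChange L (modularFunctionFieldFull N))}
    (hE : E ∈ AddSubgroup.closure (integralPrincipalDivisors A π N)) :
    ∃ (y₁ y₂ : LaurentSeries A)
      (h1 : coeffMap A.subtype y₁ ∈ laurentBaseChange L (modularFunctionFieldFull N))
      (h2 : coeffMap A.subtype y₂ ∈ laurentBaseChange L (modularFunctionFieldFull N))
      (k1 : coeffMap π y₁ ∈ modularFunctionFieldFullC k N)
      (k2 : coeffMap π y₂ ∈ modularFunctionFieldFullC k N),
      coeffMap π y₁ ≠ 0 ∧ coeffMap π y₂ ≠ 0 ∧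
      (∀ P, E P = P.ord (⟨_, h1⟩ : laurentBaseChange L (modularFunctionFieldFull N))
        - P.ord (⟨_, h2⟩ : laurentBaseChange L (modularFunctionFieldFull N))) ∧
      (∀ Q, Finsupp.mapDomain r E Q = Q.ord (⟨_, k1⟩ : modularFunctionFieldFullC k N)
        - Q.ord (⟨_, k2⟩ : modularFunctionFieldFullC k N)) := by
  have hone1 : coeffMap A.subtype (1 : LaurentSeries A) ∈
      laurentBaseChange L (modularFunctionFieldFull N) := by
    rw [map_one]; exact one_mem _
  have honek : coeffMap π (1 : LaurentSeries A) ∈ modularFunctionFieldFullC k N := by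
    rw [map_one]; exact one_mem _
  have hone1' : (⟨_, hone1⟩ : laurentBaseChange L (modularFunctionFieldFull N)) = 1 :=
    Subtype.ext (map_one _)
  have honek' : (⟨_, honek⟩ : modularFunctionFieldFullC k N) = 1 := Subtype.ext (map_one _)
  have hne1 : coeffMap π (1 : LaurentSeries A) ≠ 0 := by rw [map_one]; exact one_ne_zero
  induction hE using AddSubgroup.closure_induction with
  | mem D hD =>
    obtain ⟨y, hy, hyk, hne, hDy⟩ := hD
    refine ⟨y, 1, hy, hone1, hyk, honek, hne, hne1, fun P => ?_, fun Q => ?_⟩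
    · rw [hone1', Place.ord_one, sub_zero, hDy]
    · rw [honek', Place.ord_one, sub_zero]
      exact hr.2 y hy hyk hne D hDy Q
  | zero =>
    refine ⟨1, 1, hone1, hone1, honek, honek, hne1, hne1, fun P => ?_, fun Q => ?_⟩
    · simp
    · simp
  | add D D' _ _ hD hD' =>
    obtain ⟨y₁, y₂, h1, h2, k1, k2, n1, n2, hP, hQ⟩ := hD
    obtain ⟨z₁, z₂, g1, g2, l1, l2, m1, m2, hP', hQ'⟩ := hD'
    have a1 : coeffMap A.subtype (y₁ * z₁) ∈ laurentBaseChange L (modularFunctionFieldFull N) := by
      rw [map_mul]; exact mul_mem h1 g1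
    have a2 : coeffMap A.subtype (y₂ * z₂) ∈ laurentBaseChange L (modularFunctionFieldFull N) := by
      rw [map_mul]; exact mul_mem h2 g2
    have b1 : coeffMap π (y₁ * z₁) ∈ modularFunctionFieldFullC k N := by
      rw [map_mul]; exact mul_mem k1 l1
    have b2 : coeffMap π (y₂ * z₂) ∈ modularFunctionFieldFullC k N := by
      rw [map_mul]; exact mul_mem k2 l2
    have ea1 : (⟨_, a1⟩ : laurentBaseChange L (modularFunctionFieldFull N))
        = ⟨_, h1⟩ * ⟨_, g1⟩ := Subtype.ext (map_mul _ _ _)
    have ea2 : (⟨_, a2⟩ : laurentBaseChange L (modularFunctionFieldFull N))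
        = ⟨_, h2⟩ * ⟨_, g2⟩ := Subtype.ext (map_mul _ _ _)
    have eb1 : (⟨_, b1⟩ : modularFunctionFieldFullC k N) = ⟨_, k1⟩ * ⟨_, l1⟩ :=
      Subtype.ext (map_mul _ _ _)
    have eb2 : (⟨_, b2⟩ : modularFunctionFieldFullC k N) = ⟨_, k2⟩ * ⟨_, l2⟩ :=
      Subtype.ext (map_mul _ _ _)
    have nz : ∀ {y : LaurentSeries A}
        (h : coeffMap A.subtype y ∈ laurentBaseChange L (modularFunctionFieldFull N)),
        coeffMap π y ≠ 0 →
        (⟨_, h⟩ : laurentBaseChange L (modularFunctionFieldFull N)) ≠ 0 := by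
      intro y h hy h0
      exact coeffMap_subtype_ne_zero_of_red_ne_zero hy (congrArg Subtype.val h0)
    have nzk : ∀ {y : LaurentSeries A} (h : coeffMap π y ∈ modularFunctionFieldFullC k N),
        coeffMap π y ≠ 0 → (⟨_, h⟩ : modularFunctionFieldFullC k N) ≠ 0 := by
      intro y h hy h0
      exact hy (congrArg Subtype.val h0)
    refine ⟨y₁ * z₁, y₂ * z₂, a1, a2, b1, b2, by rw [map_mul]; exact mul_ne_zero n1 m1,
      by rw [map_mul]; exact mul_ne_zero n2 m2, fun P => ?_, fun Q => ?_⟩
    · rw [ea1, ea2, P.ord_mul (nz h1 n1) (nz g1 m1), P.ord_mul (nz h2 n2) (nz g2 m2),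
        Finsupp.add_apply, hP, hP']
      ring
    · rw [eb1, eb2, Q.ord_mul (nzk k1 n1) (nzk l1 m1), Q.ord_mul (nzk k2 n2) (nzk l2 m2),
        Finsupp.mapDomain_add, Finsupp.add_apply, hQ, hQ']
      ring
  | neg D _ hD =>
    obtain ⟨y₁, y₂, h1, h2, k1, k2, n1, n2, hP, hQ⟩ := hD
    refine ⟨y₂, y₁, h2, h1, k2, k1, n2, n1, fun P => ?_, fun Q => ?_⟩
    · rw [Finsupp.neg_apply, hP]; ring
    · have : Finsupp.mapDomain r (-D) = -Finsupp.mapDomain r D := by
        rw [← Finsupp.mapDomain.addMonoidHom_apply, map_neg, Finsupp.mapDomain.addMonoidHom_apply]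
      rw [this, Finsupp.neg_apply, hQ]; ring

end Closure

section Main

set_option synthInstance.maxHeartbeats 400000
set_option maxHeartbeats 1600000

variable {L : Type*} [Field L] [Algebra ℚ L] (A : ValuationSubring L) (N : ℕ) [NeZero N]

local notation "kA" => IsLocalRing.ResidueField A
local notation "πA" => IsLocalRing.residue A

/-- **S18, abstract form**: for ANY `r` with the two properties of `ReductionInputsAlong`, the
induced map on `Pic0` is injective on `m`-torsion, given (C0) and the constants lemma in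
characteristic `ℓ`. -/
theorem eq_zero_of_reductionPic0Along_eq_zero
    {r : Place L (laurentBaseChange L (modularFunctionFieldFull N)) →
      Place kA (modularFunctionFieldFullC kA N)}
    (hr : IsPlaceReductionAlong A πA N r) (hgen : PrincipalGeneratedByIntegral A πA N)
    (hconst : ConstOfOrdZeroC kA N) {m : ℕ} (hm : m ≠ 0) (hC0 : KummerRedInj N A m)
    (z : Pic0 L (laurentBaseChange L (modularFunctionFieldFull N)))
    (hmz : m • z = 0) (hz : reductionPic0Along r hr hgen z = 0) : z = 0 := by
  obtain ⟨D, rfl⟩ := Pic0.mk_surjective z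
  -- `m • D` is principal
  have hmD : (m • (D : Divisor L (FF L N))) ∈
      Divisor.principal (K := L) (F := FF L N) := by
    have h1 : Pic0.mk (m • D) = 0 := hmz
    have h2 := (QuotientAddGroup.eq_zero_iff _).mp h1
    rw [AddSubgroup.mem_addSubgroupOf] at h2
    simpa using h2
  -- the reduction of `D` is principal
  have hrD : Finsupp.mapDomain r (D : Divisor L (FF L N)) ∈
      Divisor.principal (K := kA) (F := modularFunctionFieldFullC kA N) := by
    rw [reductionPic0Along_mk] at hz
    have h2 := (QuotientAddGroup.eq_zero_iff _).mp hz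
    rw [AddSubgroup.mem_addSubgroupOf] at h2
    simpa using h2
  obtain ⟨wb, hwb0, hwb⟩ := hrD
  obtain ⟨y₁, y₂, h1, h2, k1, k2, n1, n2, hP, hQ⟩ := exists_frac_of_mem_closure hr (hgen hmD)
  -- names
  set Y1 : FF L N := ⟨_, h1⟩ with hY1
  set Y2 : FF L N := ⟨_, h2⟩ with hY2
  set Yb1 : modularFunctionFieldFullC kA N := ⟨_, k1⟩ with hYb1
  set Yb2 : modularFunctionFieldFullC kA N := ⟨_, k2⟩ with hYb2
  have hY1ne : Y1 ≠ 0 := fun h0 =>
    coeffMap_subtype_ne_zero_of_red_ne_zero n1 (congrArg Subtype.val h0)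
  have hY2ne : Y2 ≠ 0 := fun h0 =>
    coeffMap_subtype_ne_zero_of_red_ne_zero n2 (congrArg Subtype.val h0)
  have hYb1ne : Yb1 ≠ 0 := fun h0 => n1 (congrArg Subtype.val h0)
  have hYb2ne : Yb2 ≠ 0 := fun h0 => n2 (congrArg Subtype.val h0)
  -- the quotient `ȳ₁ / ȳ₂ / w̄ ^ m` has trivial divisor, hence is constant
  have hg0 : Yb1 / Yb2 / wb ^ m ≠ 0 :=
    div_ne_zero (div_ne_zero hYb1ne hYb2ne) (pow_ne_zero m hwb0)
  have hgord : ∀ Q : Place kA (modularFunctionFieldFullC kA N), Q.ord (Yb1 / Yb2 / wb ^ m) = 0 := by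
    intro Q
    have e1 := hQ Q
    rw [Finsupp.mapDomain_smul, Finsupp.smul_apply, hwb Q] at e1
    rw [div_eq_mul_inv, Q.ord_mul (div_ne_zero hYb1ne hYb2ne) (inv_ne_zero (pow_ne_zero m hwb0)),
      Q.ord_inv, div_eq_mul_inv, Q.ord_mul hYb1ne (inv_ne_zero hYb2ne), Q.ord_inv,
      ← zpow_natCast, Q.ord_zpow]
    rw [nsmul_eq_mul] at e1
    linarith
  obtain ⟨cb, hcb⟩ := hconst _ hg0 hgord
  have hcb0 : cb ≠ 0 := by
    rintro rfl
    rw [map_zero] at hcb
    exact hg0 hcb
  -- lifts
  obtain ⟨c, rfl⟩ := IsLocalRing.residue_surjective (R := A) cb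
  obtain ⟨w, hw⟩ := exists_redRel A πA N IsLocalRing.residue_surjective wb.2
  have hwb0' : (wb : LaurentSeries kA) ≠ 0 := fun h0 => hwb0 (Subtype.ext h0)
  have hw0 : w ≠ 0 := hw.ne_zero hwb0'
  set W : FF L N := ⟨w, hw.mem⟩ with hW
  have hW0 : W ≠ 0 := fun h0 => hw0 (congrArg Subtype.val h0)
  have hc0 : (c : L) ≠ 0 := by
    intro h0
    have : c = 0 := Subtype.ext h0
    rw [this, map_zero] at hcb0
    exact hcb0 rfl
  have hC0' : algebraMap L (FF L N) (c : L) ≠ 0 := by
    rw [ne_eq, map_eq_zero_iff _ (algebraMap L (FF L N)).injective]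
    exact hc0
  -- the test function
  set Z : FF L N := Y1 / Y2 / (algebraMap L (FF L N) (c : L) * W ^ m) with hZ
  have hZ0 : Z ≠ 0 :=
    div_ne_zero (div_ne_zero hY1ne hY2ne) (mul_ne_zero hC0' (pow_ne_zero m hW0))
  have hZdvd : ∀ P : Place L (FF L N), (m : ℤ) ∣ P.ord Z := by
    intro P
    have e1 := hP P
    rw [Finsupp.smul_apply, nsmul_eq_mul] at e1
    refine ⟨(D : Divisor L (FF L N)) P - P.ord W, ?_⟩
    rw [hZ, div_eq_mul_inv,
      P.ord_mul (div_ne_zero hY1ne hY2ne) (inv_ne_zero (mul_ne_zero hC0' (pow_ne_zero m hW0))),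
      P.ord_inv, P.ord_mul hC0' (pow_ne_zero m hW0), Fermat.Agent.S24.PD.place_ord_algebraMap,
      div_eq_mul_inv, P.ord_mul hY1ne (inv_ne_zero hY2ne), P.ord_inv, ← zpow_natCast, P.ord_zpow]
    linarith
  have hZred : RedRel A πA (FF L N) (Z : LaurentSeries L) 1 := by
    have hu : RedRel A πA (FF L N) ((Y1 : LaurentSeries L) / (Y2 : LaurentSeries L))
        ((Yb1 : LaurentSeries kA) / (Yb2 : LaurentSeries kA)) := by
      refine ⟨y₁, y₂, h1, h2, n2, ?_, ?_⟩
      · exact div_mul_cancel₀ _ (coeffMap_subtype_ne_zero_of_red_ne_zero n2)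
      · exact div_mul_cancel₀ _ n2
    have hcw : RedRel A πA (FF L N)
        (algebraMap L (LaurentSeries L) (c : L) * w ^ m)
        (algebraMap kA (LaurentSeries kA) (πA c) * (wb : LaurentSeries kA) ^ m) :=
      (redRel_const c).mul (hw.pow m)
    have hne : algebraMap kA (LaurentSeries kA) (πA c) * (wb : LaurentSeries kA) ^ m ≠ 0 := by
      refine mul_ne_zero ?_ (pow_ne_zero m hwb0')
      rw [ne_eq, map_eq_zero_iff _ (algebraMap kA (LaurentSeries kA)).injective]
      exact hcb0
    have h3 := hu.div hcw hne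
    have e1 : (Z : LaurentSeries L) = (Y1 : LaurentSeries L) / (Y2 : LaurentSeries L) /
        (algebraMap L (LaurentSeries L) (c : L) * w ^ m) := by
      rw [hZ]
      push_cast
      rfl
    have e2 : (Yb1 : LaurentSeries kA) / (Yb2 : LaurentSeries kA) /
        (algebraMap kA (LaurentSeries kA) (πA c) * (wb : LaurentSeries kA) ^ m) = 1 := by
      have e3 := congrArg Subtype.val hcb
      have e4 : ((Yb1 / Yb2 / wb ^ m : modularFunctionFieldFullC kA N) : LaurentSeries kA)
          = (Yb1 : LaurentSeries kA) / (Yb2 : LaurentSeries kA) / (wb : LaurentSeries kA) ^ m := by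
        push_cast
        rfl
      have e5 : ((algebraMap kA (modularFunctionFieldFullC kA N) (πA c) :
          modularFunctionFieldFullC kA N) : LaurentSeries kA)
          = algebraMap kA (LaurentSeries kA) (πA c) := rfl
      rw [e4, e5] at e3
      have e6 : (Yb1 : LaurentSeries kA) / (Yb2 : LaurentSeries kA)
          = algebraMap kA (LaurentSeries kA) (πA c) * (wb : LaurentSeries kA) ^ m := by
        rw [← e3, div_mul_cancel₀ _ (pow_ne_zero m hwb0')]
      rw [e6, div_self hne]
    rw [e1]
    rw [e2] at h3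
    exact h3
  obtain ⟨c', h, hZeq⟩ := hC0 Z hZ0 hZdvd hZred
  have hc'0 : algebraMap L (FF L N) c' ≠ 0 := by
    intro h0
    rw [h0, zero_mul] at hZeq
    exact hZ0 hZeq
  have hh0 : h ≠ 0 := by
    rintro rfl
    rw [zero_pow hm, mul_zero] at hZeq
    exact hZ0 hZeq
  -- `D = div (W * h)`
  have hDprin : (D : Divisor L (FF L N)) ∈ Divisor.principal (K := L) (F := FF L N) := by
    refine ⟨W * h, mul_ne_zero hW0 hh0, fun P => ?_⟩
    have e1 := hP P
    rw [Finsupp.smul_apply, nsmul_eq_mul] at e1
    have e2 : P.ord Z = (m : ℤ) * P.ord h := by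
      rw [hZeq, P.ord_mul hc'0 (pow_ne_zero m hh0), Fermat.Agent.S24.PD.place_ord_algebraMap,
        ← zpow_natCast, P.ord_zpow, zero_add]
    have e3 : P.ord Z = P.ord Y1 - P.ord Y2 - (m : ℤ) * P.ord W := by
      rw [hZ, div_eq_mul_inv,
        P.ord_mul (div_ne_zero hY1ne hY2ne)
          (inv_ne_zero (mul_ne_zero hC0' (pow_ne_zero m hW0))),
        P.ord_inv, P.ord_mul hC0' (pow_ne_zero m hW0), Fermat.Agent.S24.PD.place_ord_algebraMap,
        div_eq_mul_inv, P.ord_mul hY1ne (inv_ne_zero hY2ne), P.ord_inv, ← zpow_natCast,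
        P.ord_zpow]
      ring
    rw [P.ord_mul hW0 hh0]
    have hm' : (m : ℤ) ≠ 0 := by exact_mod_cast hm
    have : (m : ℤ) * (D : Divisor L (FF L N)) P = (m : ℤ) * (P.ord W + P.ord h) := by
      rw [e1, mul_add, ← e2, e3]; ring
    exact mul_left_cancel₀ hm' this
  refine (QuotientAddGroup.eq_zero_iff _).mpr ?_
  rw [AddSubgroup.mem_addSubgroupOf]
  exact hDprin

end Main

section Final

set_option synthInstance.maxHeartbeats 400000
set_option maxHeartbeats 1600000

/-- **S18 from (C0) at level `N` and the constants lemma in characteristic `ℓ`.** -/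
theorem s18_of_inputs (N : ℕ) [NeZero N] (A : ValuationSubring (AlgebraicClosure ℚ))
    (hconst : ConstOfOrdZeroC (IsLocalRing.ResidueField A) N)
    (h : ModularCurve.ReductionInputsModL A N) (m : ℕ) (hm : m ≠ 0)
    (hC0 : KummerRedInj (L := AlgebraicClosure ℚ) N A m) (z : ModularCurve.JZero N)
    (hmz : m • z = 0) (hz : ModularCurve.reductionModL A N z = 0) : z = 0 := by
  have hz' : reductionPic0Along h.choose h.choose_spec.1 h.choose_spec.2 z = 0 := by
    rw [← reductionAlong_eq h]
    exact hz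
  exact eq_zero_of_reductionPic0Along_eq_zero A N h.choose_spec.1 h.choose_spec.2 hconst hm hC0 z
    hmz hz'

end Final

end Fermat.Agent.Gateway.S18Glue
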