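/-
P-GATEWAY (d), module EigenChar (helper3).

A normalised eigenform `g` (Prelude: recursion on `q`-coefficients) is an eigenvector of every
element of the Hecke algebra `heckeAlgebra N 2 S` as soon as `S` contains the primes dividing `N`;
the eigenvalue map is a ring homomorphism `eigenChar : heckeAlgebra N 2 S →+* ℂ` with
`eigenChar (T ℓ) = a_ℓ(g)`.
-/
import Mathlib
import Fermat.Prelude.Def_CuspForm_HeckeAlgebra
import Fermat.Prelude.Def_FLTPrelim_Modularity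
import Fermat.Prelude.Def_FLTPrelim_ModularRep
import Fermat.Agent.S49.Eigenform

set_option autoImplicit false

namespace Fermat.Agent.Gateway.Assembly

open UpperHalfPlane ModularFormClass CongruenceSubgroup Fermat.Agent.S49.Eigenform

variable {N : ℕ}

/-- The Hecke relation on coefficients of a normalised eigenform at a good prime. -/
theorem EigenChar.coeff_relation {g : CuspForm (Gamma0 N) 2} (hg : g.IsNormalizedEigenform)
    {ℓ : ℕ} (hℓ : ℓ.Prime) (hℓN : ¬ ℓ ∣ N) (n : ℕ) :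
    ModularForm.coeffHeckeT 2 ℓ (qCoeff (⇑g)) n = qCoeff (⇑g) ℓ * qCoeff (⇑g) n := by
  rw [ModularForm.coeffHeckeT_apply]
  rcases Nat.eq_zero_or_pos n with rfl | hn
  · simp [qCoeff_zero_cuspForm]
  -- write `n = ℓ ^ r * m` with `ℓ ∤ m`
  obtain ⟨r, m, hm, rfl⟩ := Nat.exists_eq_pow_mul_and_not_dvd hn.ne' ℓ hℓ.ne_one
  have hcop : ∀ s : ℕ, (ℓ ^ s).Coprime m := fun s =>
    Nat.Coprime.pow_left s ((Nat.Prime.coprime_iff_not_dvd hℓ).mpr hm)
  have e1 : ℓ ^ r * m * ℓ = ℓ ^ (r + 1) * m := by ring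
  rw [e1, hg.qCoeff_mul_of_coprime _ _ (hcop (r + 1)), hg.qCoeff_mul_of_coprime _ _ (hcop r)]
  rcases r with _ | r
  · have hnd : ¬ ℓ ∣ ℓ ^ 0 * m := by simpa using hm
    rw [if_neg hnd, add_zero, zero_add, pow_one, pow_zero, hg.qCoeff_one, one_mul]
  · have hd : ℓ ∣ ℓ ^ (r + 1) * m := Dvd.dvd.mul_right (dvd_pow_self ℓ (Nat.succ_ne_zero r)) m
    have e2 : ℓ ^ (r + 1) * m / ℓ = ℓ ^ r * m := by
      rw [pow_succ, mul_assoc, mul_comm ℓ m, ← mul_assoc]
      exact Nat.mul_div_cancel _ hℓ.pos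
    rw [if_pos hd, e2, hg.qCoeff_mul_of_coprime _ _ (hcop r),
      hg.qCoeff_prime_pow_of_not_dvd ℓ r hℓ hℓN]
    have : ((ℓ : ℂ)) ^ ((2 : ℤ) - 1) = (ℓ : ℂ) := by norm_num
    rw [this]
    ring

/-- A normalised eigenform is an eigenvector of `T_ℓ` with eigenvalue `a_ℓ`. -/
theorem EigenChar.heckeTLin_apply {g : CuspForm (Gamma0 N) 2} (hg : g.IsNormalizedEigenform)
    {ℓ : ℕ} (hℓ : ℓ.Prime) (hℓN : ¬ ℓ ∣ N) :
    CuspForm.heckeTLin 2 hℓ hℓN g = qCoeff (⇑g) ℓ • g := by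
  rw [← sub_eq_zero]
  apply cuspForm_eq_zero_of_qCoeff
  intro n
  have h1 := qCoeff_heckeTLin hℓ hℓN g n
  have h2 := qCoeff_smul_cuspForm (qCoeff (⇑g) ℓ) g n
  have hsub : qCoeff (⇑(CuspForm.heckeTLin 2 hℓ hℓN g - qCoeff (⇑g) ℓ • g)) n
      = qCoeff (⇑(CuspForm.heckeTLin 2 hℓ hℓN g)) n - qCoeff (⇑(qCoeff (⇑g) ℓ • g)) n := by
    have hΓ := one_mem_strictPeriods_Gamma0 N
    have := ModularForm.qExpansion_sub (a := 2) (b := 2) one_pos hΓ
      (CuspForm.heckeTLin 2 hℓ hℓN g) (qCoeff (⇑g) ℓ • g)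
    have hcoe : (⇑(CuspForm.heckeTLin 2 hℓ hℓN g - qCoeff (⇑g) ℓ • g) : ℍ → ℂ)
        = ⇑(CuspForm.heckeTLin 2 hℓ hℓN g) - ⇑(qCoeff (⇑g) ℓ • g) := rfl
    rw [qCoeff, hcoe, this]
    simp [qCoeff]
  rw [hsub, h1, h2, EigenChar.coeff_relation hg hℓ hℓN, sub_self]

section

variable {N : ℕ} [NeZero N]

/-- Every element of the Hecke algebra away from the level has `g` as an eigenvector. -/
theorem EigenChar.exists_eigenvalue {S : Set ℕ} (hS : ∀ q : ℕ, q.Prime → q ∣ N → q ∈ S)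
    {g : CuspForm (Gamma0 N) 2} (hg : g.IsNormalizedEigenform)
    (t : CuspForm.heckeAlgebra N 2 S) :
    ∃ c : ℂ, (t : Module.End ℂ (CuspForm (Gamma0 N) 2)) g = c • g := by
  obtain ⟨t, ht⟩ := t
  show ∃ c : ℂ, t g = c • g
  induction ht using Algebra.adjoin_induction with
  | mem x hx =>
    rcases hx with ⟨ℓ, hℓ, hℓN, -, rfl⟩ | ⟨q, hqN, hq, hqS, rfl⟩
    · exact ⟨_, EigenChar.heckeTLin_apply hg hℓ hℓN⟩
    · exact absurd (hS q hq hqN) hqS
  | algebraMap z =>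
    refine ⟨(z : ℂ), ?_⟩
    rw [Algebra.algebraMap_eq_smul_one, LinearMap.smul_apply, Module.End.one_apply]
    exact (Int.cast_smul_eq_zsmul ℂ z g).symm
  | add x y _ _ hx hy =>
    obtain ⟨c, hc⟩ := hx
    obtain ⟨d, hd⟩ := hy
    exact ⟨c + d, by rw [LinearMap.add_apply, hc, hd, add_smul]⟩
  | mul x y _ _ hx hy =>
    obtain ⟨c, hc⟩ := hx
    obtain ⟨d, hd⟩ := hy
    exact ⟨d * c, by rw [Module.End.mul_apply, hd, map_smul, hc, smul_smul]⟩

/-- The eigenvalue of `t` on `g` is the first coefficient of `t g`. -/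
theorem EigenChar.apply_eq {S : Set ℕ} (hS : ∀ q : ℕ, q.Prime → q ∣ N → q ∈ S)
    {g : CuspForm (Gamma0 N) 2} (hg : g.IsNormalizedEigenform)
    (t : CuspForm.heckeAlgebra N 2 S) :
    (t : Module.End ℂ (CuspForm (Gamma0 N) 2)) g
      = qCoeff (⇑((t : Module.End ℂ (CuspForm (Gamma0 N) 2)) g)) 1 • g := by
  obtain ⟨c, hc⟩ := EigenChar.exists_eigenvalue hS hg t
  rw [hc, qCoeff_smul_cuspForm, hg.qCoeff_one, mul_one]

/-- The eigencharacter of a normalised eigenform on the Hecke algebra away from the level. -/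
noncomputable def eigenChar {S : Set ℕ} (hS : ∀ q : ℕ, q.Prime → q ∣ N → q ∈ S)
    {g : CuspForm (Gamma0 N) 2} (hg : g.IsNormalizedEigenform) :
    CuspForm.heckeAlgebra N 2 S →+* ℂ where
  toFun t := qCoeff (⇑((t : Module.End ℂ (CuspForm (Gamma0 N) 2)) g)) 1
  map_one' := by
    show qCoeff (⇑(((1 : CuspForm.heckeAlgebra N 2 S) : Module.End ℂ _) g)) 1 = 1
    rw [OneMemClass.coe_one, Module.End.one_apply, hg.qCoeff_one]
  map_mul' x y := by
    show qCoeff (⇑(((x * y : CuspForm.heckeAlgebra N 2 S) : Module.End ℂ _) g)) 1 = _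
    rw [MulMemClass.coe_mul, Module.End.mul_apply, EigenChar.apply_eq hS hg y, map_smul,
      qCoeff_smul_cuspForm, mul_comm]
    congr 1
    rw [← EigenChar.apply_eq hS hg y]
  map_zero' := by
    show qCoeff (⇑(((0 : CuspForm.heckeAlgebra N 2 S) : Module.End ℂ _) g)) 1 = 0
    rw [ZeroMemClass.coe_zero, LinearMap.zero_apply]
    have := qCoeff_smul_cuspForm (0 : ℂ) g 1
    rw [zero_smul, zero_mul] at this
    exact this
  map_add' x y := by
    show qCoeff (⇑(((x + y : CuspForm.heckeAlgebra N 2 S) : Module.End ℂ _) g)) 1 = _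
    rw [AddMemClass.coe_add, LinearMap.add_apply]
    obtain ⟨c, hc⟩ := EigenChar.exists_eigenvalue hS hg x
    obtain ⟨d, hd⟩ := EigenChar.exists_eigenvalue hS hg y
    rw [hc, hd, ← add_smul, qCoeff_smul_cuspForm, qCoeff_smul_cuspForm, qCoeff_smul_cuspForm,
      add_mul]

theorem eigenChar_smul {S : Set ℕ} (hS : ∀ q : ℕ, q.Prime → q ∣ N → q ∈ S)
    {g : CuspForm (Gamma0 N) 2} (hg : g.IsNormalizedEigenform)
    (t : CuspForm.heckeAlgebra N 2 S) :
    (t : Module.End ℂ (CuspForm (Gamma0 N) 2)) g = eigenChar hS hg t • g :=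
  EigenChar.apply_eq hS hg t

theorem eigenChar_T {S : Set ℕ} (hS : ∀ q : ℕ, q.Prime → q ∣ N → q ∈ S)
    {g : CuspForm (Gamma0 N) 2} (hg : g.IsNormalizedEigenform)
    {ℓ : ℕ} (hℓ : ℓ.Prime) (hℓN : ¬ ℓ ∣ N) (hℓS : ℓ ∉ S) :
    eigenChar hS hg (CuspForm.heckeAlgebra.T hℓ hℓN hℓS) = qCoeff (⇑g) ℓ := by
  show qCoeff (⇑((CuspForm.heckeTLin 2 hℓ hℓN) g)) 1 = _
  rw [EigenChar.heckeTLin_apply hg hℓ hℓN, qCoeff_smul_cuspForm, hg.qCoeff_one, mul_one]

/-- Eigenvalues are algebraic integers as soon as the Hecke algebra is a finite `ℤ`-module. -/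
theorem eigenChar_isIntegral {S : Set ℕ} (hS : ∀ q : ℕ, q.Prime → q ∣ N → q ∈ S)
    {g : CuspForm (Gamma0 N) 2} (hg : g.IsNormalizedEigenform)
    (hfin : Module.Finite ℤ (CuspForm.heckeAlgebra N 2 S)) (t : CuspForm.heckeAlgebra N 2 S) :
    IsIntegral ℤ (eigenChar hS hg t) := by
  have ht : IsIntegral ℤ t := IsIntegral.of_finite ℤ t
  exact ht.map (eigenChar hS hg).toIntAlgHom

end

end Fermat.Agent.Gateway.Assembly
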