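/-
P-GATEWAY (d), module S42 (helper3).

The reduction `S42 ⇐ S29`, given that the Galois action on the `p`-torsion of the Frey curve
factors through a finite level (i.e. the `p`-torsion is finite).
-/
import Fermat.Agent.Gateway.Statements

set_option autoImplicit false

namespace Fermat.Agent.Gateway.Assembly

open Polynomial WeierstrassCurve WeierstrassCurve.Affine.Point

/-- Trace and determinant of an endomorphism of a plane from its characteristic polynomial. -/
theorem trace_det_of_charpoly {K V : Type*} [Field K] [AddCommGroup V] [Module K V]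
    [Module.Finite K V] (h2 : Module.finrank K V = 2) (f : Module.End K V) (a b : K)
    (h : LinearMap.charpoly f = X ^ 2 - C a * X + C b) :
    LinearMap.trace K V f = a ∧ LinearMap.det f = b := by
  constructor
  · let bs : Module.Basis (Fin 2) K V := Module.finBasisOfFinrankEq K V h2
    rw [LinearMap.trace_eq_matrix_trace K bs f, Matrix.trace_eq_neg_charpoly_coeff,
      LinearMap.charpoly_toMatrix, h]
    simp [coeff_C]
  · rw [LinearMap.det_eq_sign_charpoly_coeff, h2, h]
    simp [coeff_X, coeff_C]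

/-- The Galois action on the `p`-torsion of every Frey curve factors through a finite level. -/
def FreyTorsionFiniteLevel : Prop :=
  ∀ P : FreyPackage,
    letI : DecidableEq (AlgebraicClosure ℚ) := Classical.decEq _
    GaloisFactorsThroughFiniteLevel
      (galoisRepModuleEnd (S := ℚ) (K := AlgebraicClosure ℚ) P.freyCurve P.p)

theorem s42_of_s29 (hlev : FreyTorsionFiniteLevel) (h29 : S29Statement) : S42Statement := by
  classical
  intro P M _ g hg 𝔪 h𝔪 hp𝔪
  have : 𝔪.IsMaximal := h𝔪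
  let k : Type := integralClosure ℤ ℂ ⧸ 𝔪
  let _ : Field k := Ideal.Quotient.field 𝔪
  let ψ : integralClosure ℤ ℂ →+* k := Ideal.Quotient.mk 𝔪
  have hpk : ((P.p : ℕ) : k) = 0 := by
    have : ψ (P.p : integralClosure ℤ ℂ) = 0 := Ideal.Quotient.eq_zero_iff_mem.mpr hp𝔪
    rwa [map_natCast] at this
  have : CharP k P.p := (CharP.charP_iff_prime_eq_zero P.pp).mpr hpk
  obtain ⟨ρ, hatt, -⟩ := h29 hg P.pp ψ
  obtain ⟨L₁, hL₁fin, hL₁⟩ := ρ.factorsThroughFiniteLevel
  obtain ⟨L₂, hL₂fin, hL₂⟩ := hlev P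
  have := hL₁fin
  have := hL₂fin
  let F : IntermediateField ℚ (AlgebraicClosure ℚ) :=
    IntermediateField.normalClosure ℚ ↥(L₁ ⊔ L₂) (AlgebraicClosure ℚ)
  have hLF : L₁ ⊔ L₂ ≤ F := IntermediateField.le_normalClosure _
  have hFfin : FiniteDimensional ℚ F :=
    normalClosure.is_finiteDimensional ℚ ↥(L₁ ⊔ L₂) (AlgebraicClosure ℚ)
  have hFnum : NumberField F := { to_charZero := inferInstance, to_finiteDimensional := hFfin }
  have : Algebra.IsAlgebraic ℚ (AlgebraicClosure ℚ) := AlgebraicClosure.isAlgebraic ℚ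
  have : IsAlgClosure ℚ (AlgebraicClosure ℚ) := ⟨inferInstance, inferInstance⟩
  have : Normal ℚ (AlgebraicClosure ℚ) := IsAlgClosure.normal ℚ (AlgebraicClosure ℚ)
  have hFnormal : Normal ℚ F :=
    normalClosure.normal ℚ ↥(L₁ ⊔ L₂) (AlgebraicClosure ℚ)
  have hFgal : IsGalois ℚ F := ⟨⟩
  refine ⟨k, inferInstance, ZMod.algebra k P.p, ρ.V, inferInstance, inferInstance, ρ.ρ, ψ,
    F, inferInstance, hFnum, hFgal, inferInstance, inferInstance, ?_, ρ.finrank_eq, ?_, ?_, ?_⟩
  · intro x hx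
    exact Ideal.Quotient.eq_zero_iff_mem.mpr hx
  · intro σ hσ
    have hσ1 : AlgEquiv.restrictNormalHom (F := ℚ) (K₁ := AlgebraicClosure ℚ) F σ = 1 :=
      MonoidHom.mem_ker.mp hσ
    have hfix : ∀ x ∈ F, σ x = x := by
      intro x hx
      have h1 := AlgEquiv.restrictNormal_commutes σ F ⟨x, hx⟩
      have h2 : σ.restrictNormal F = 1 := hσ1
      rw [h2] at h1
      exact h1.symm
    refine Subgroup.mem_inf.mpr ⟨?_, ?_⟩
    · exact MonoidHom.mem_ker.mpr (hL₂ σ fun x hx => hfix x (hLF (le_sup_right (a := L₁) hx)))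
    · exact MonoidHom.mem_ker.mpr (hL₁ σ fun x hx => hfix x (hLF (le_sup_left (b := L₂) hx)))
  · intro ℓ hℓ hℓM hℓp A hA τ hτ
    have hℓk : (ℓ : k) ≠ 0 := by
      intro h0
      have := (CharP.cast_eq_zero_iff k P.p ℓ).mp h0
      exact hℓp ((Nat.prime_dvd_prime_iff_eq P.pp hℓ).mp this).symm
    obtain ⟨a, ha, hch⟩ := hatt ℓ hℓ hℓM hℓk A hA τ hτ
    exact ⟨a, ha, (trace_det_of_charpoly ρ.finrank_eq _ _ _ hch).1⟩
  · intro ℓ hℓ hℓM hℓp A hA τ hτ
    have hℓk : (ℓ : k) ≠ 0 := by
      intro h0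
      have := (CharP.cast_eq_zero_iff k P.p ℓ).mp h0
      exact hℓp ((Nat.prime_dvd_prime_iff_eq P.pp hℓ).mp this).symm
    obtain ⟨a, ha, hch⟩ := hatt ℓ hℓ hℓM hℓk A hA τ hτ
    exact (trace_det_of_charpoly ρ.finrank_eq _ _ _ hch).2

end Fermat.Agent.Gateway.Assembly
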