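/-
helper73: the extra input `FreyTorsionFiniteLevel` of `s42_of_s29` (helper3, Gateway/S42.lean) is
now unconditional: the `p`-torsion of the Frey curve over `ℚ̄` is finite
(`Fermat.Agent.Lib.EC.TorsionFinite`, no division polynomials).  Hence `S42` follows from `S29`.
-/
import Fermat.Agent.Gateway.S42
import Fermat.Agent.Lib.EC.FreyTorsionField

set_option autoImplicit false

namespace Fermat.Agent.Gateway.FreyTorsionLevel

open Fermat.Agent.Gateway Fermat.Agent.Gateway.Assembly

/-- The Galois action on the `p`-torsion of every Frey curve factors through a finite level. -/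
theorem freyTorsionFiniteLevel : FreyTorsionFiniteLevel := fun P =>
  Fermat.Agent.Lib.EC.FreyTorsionField.frey_galoisFactorsThroughFiniteLevel P

/-- `S42` from `S29`, with no further input. -/
theorem s42_of_s29_unconditional (h29 : S29Statement) : S42Statement :=
  s42_of_s29 freyTorsionFiniteLevel h29

end Fermat.Agent.Gateway.FreyTorsionLevel
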