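/-
P-GATEWAY (d), module Residual (helper3).

Reduction of an adic Galois representation modulo the maximal ideal followed by an extension of
the residue field: characteristic polynomials and unramifiedness.
-/
import Mathlib
import Fermat.Prelude.Def_GaloisRep_Adic

set_option autoImplicit false

namespace Fermat.Agent.Gateway.Assembly

open Polynomial IsLocalRing

variable {A : Type} [CommRing A] [IsLocalRing A] {k : Type} [Field k]

/-- The residual representation of `ρ`, extended to a field `k` along `j : κ(A) → k`. -/
noncomputable def residualAlong (ρ : GaloisRepAdic A) (j : ResidueField A →+* k) :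
    ResidualGaloisRep k :=
  letI : Algebra (ResidueField A) k := j.toAlgebra
  ρ.residual.baseChange k

theorem residualAlong_charpoly (ρ : GaloisRepAdic A) (j : ResidueField A →+* k)
    (σ : AlgebraicClosure ℚ ≃ₐ[ℚ] AlgebraicClosure ℚ) :
    LinearMap.charpoly ((residualAlong ρ j).ρ σ)
      = (LinearMap.charpoly (ρ.ρ σ)).map (j.comp (residue A)) := by
  letI : Algebra (ResidueField A) k := j.toAlgebra
  show LinearMap.charpoly (((ρ.ρ σ).baseChange (ResidueField A)).baseChange k) = _
  rw [LinearMap.charpoly_baseChange, LinearMap.charpoly_baseChange, Polynomial.map_map]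
  rfl

theorem residualAlong_isUnramifiedAt (ρ : GaloisRepAdic A) (j : ResidueField A →+* k) {q : ℕ}
    (h : ρ.IsUnramifiedAt q) : (residualAlong ρ j).IsUnramifiedAt q := by
  letI : Algebra (ResidueField A) k := j.toAlgebra
  intro P hP σ hσ
  show ((ρ.ρ σ).baseChange (ResidueField A)).baseChange k = 1
  rw [h P hP σ hσ, LinearMap.baseChange_one, LinearMap.baseChange_one]

end Fermat.Agent.Gateway.Assembly
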