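/-
P-GATEWAY (d), module ZbarResidue (helper3).

For a ring homomorphism `φ : ℤ̄ → k` into a field of characteristic `p > 0`
(`ℤ̄ = integralClosure ℤ ℂ`) the kernel is a maximal ideal and the residue field `ℤ̄ ⧸ ker φ`
is algebraically closed.
-/
import Mathlib

set_option autoImplicit false

namespace Fermat.Agent.Gateway.Assembly

open Polynomial

/-- A root in `ℂ` of a monic polynomial with algebraic-integer coefficients is an algebraic
integer. -/
theorem ZbarResidue.exists_root_of_monic (P : (integralClosure ℤ ℂ)[X]) (hP : P.Monic)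
    (hdeg : P.natDegree ≠ 0) : ∃ x : integralClosure ℤ ℂ, P.eval x = 0 := by
  have hdeg' : (P.map (algebraMap (integralClosure ℤ ℂ) ℂ)).degree ≠ 0 := by
    rw [degree_map_eq_of_injective (FaithfulSMul.algebraMap_injective _ _)]
    intro h
    exact hdeg (natDegree_eq_zero_iff_degree_le_zero.mpr h.le)
  obtain ⟨α, hα⟩ := IsAlgClosed.exists_root (P.map (algebraMap (integralClosure ℤ ℂ) ℂ)) hdeg'
  have hint : IsIntegral (integralClosure ℤ ℂ) α := ⟨P, hP, by
    rwa [IsRoot.def, eval_map] at hα⟩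
  have hint' : IsIntegral ℤ α := isIntegral_trans α hint
  refine ⟨⟨α, hint'⟩, ?_⟩
  apply FaithfulSMul.algebraMap_injective (integralClosure ℤ ℂ) ℂ
  rw [map_zero, ← Polynomial.eval₂_at_apply, ← eval_map]
  exact hα

variable {k : Type*} [Field k]

/-- The kernel of `φ : ℤ̄ → k` is maximal when `k` has positive characteristic. -/
theorem ZbarResidue.ker_isMaximal (p : ℕ) [hp : Fact p.Prime] [CharP k p]
    (φ : integralClosure ℤ ℂ →+* k) : (RingHom.ker φ).IsMaximal := by
  have : (RingHom.ker φ).IsPrime := RingHom.ker_isPrime φ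
  -- the quotient is a domain integral over `ZMod p`
  have hpmem : (p : integralClosure ℤ ℂ) ∈ RingHom.ker φ := by
    rw [RingHom.mem_ker, map_natCast, CharP.cast_eq_zero]
  let M := integralClosure ℤ ℂ ⧸ RingHom.ker φ
  have : CharP M p := by
    refine (CharP.charP_iff_prime_eq_zero hp.out).mpr ?_
    show ((p : ℕ) : M) = 0
    have : ((p : integralClosure ℤ ℂ) : M) = 0 :=
      Ideal.Quotient.eq_zero_iff_mem.mpr hpmem
    simpa using this
  letI : Algebra (ZMod p) M := ZMod.algebra M p
  have hint : Algebra.IsIntegral (ZMod p) M := by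
    refine ⟨fun x => ?_⟩
    obtain ⟨y, rfl⟩ := Ideal.Quotient.mk_surjective x
    have hy : IsIntegral ℤ y := Algebra.IsIntegral.isIntegral y
    have hy' : IsIntegral ℤ (Ideal.Quotient.mk (RingHom.ker φ) y) :=
      hy.map (Ideal.Quotient.mkₐ ℤ (RingHom.ker φ))
    exact hy'.tower_top
  have hfield : IsField M :=
    isField_of_isIntegral_of_isField' (R := ZMod p) (S := M) (Field.toIsField (ZMod p))
  exact Ideal.Quotient.maximal_of_isField _ hfield

/-- The residue field `ℤ̄ ⧸ 𝔪` is algebraically closed (for a maximal ideal `𝔪`). -/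
theorem ZbarResidue.isAlgClosed (𝔪 : Ideal (integralClosure ℤ ℂ)) [𝔪.IsMaximal] :
    letI : Field (integralClosure ℤ ℂ ⧸ 𝔪) := Ideal.Quotient.field 𝔪
    IsAlgClosed (integralClosure ℤ ℂ ⧸ 𝔪) := by
  letI : Field (integralClosure ℤ ℂ ⧸ 𝔪) := Ideal.Quotient.field 𝔪
  refine IsAlgClosed.of_exists_root _ fun q hq hirr => ?_
  have hmem : q ∈ Polynomial.lifts (Ideal.Quotient.mk 𝔪) :=
    (Polynomial.mem_lifts q).mpr (Polynomial.map_surjective _ Ideal.Quotient.mk_surjective q)
  obtain ⟨P, hPq, hPdeg, hPmonic⟩ := Polynomial.lifts_and_natDegree_eq_and_monic hmem hq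
  have hdeg : P.natDegree ≠ 0 := by
    rw [hPdeg]
    exact (Polynomial.natDegree_pos_iff_degree_pos.mpr (Polynomial.degree_pos_of_irreducible hirr)).ne'
  obtain ⟨x, hx⟩ := ZbarResidue.exists_root_of_monic P hPmonic hdeg
  refine ⟨Ideal.Quotient.mk 𝔪 x, ?_⟩
  rw [← hPq, eval_map, Polynomial.eval₂_at_apply, hx, map_zero]

end Fermat.Agent.Gateway.Assembly
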