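/-
P-GATEWAY (d), module ResidueEmbed (helper3).

Given `φ : ℤ̄ → k` (`k` of characteristic `p`) and a number field `K ⊆ ℂ`, a complete discrete
valuation ring `O ⊇ 𝓞 K` whose residue field embeds into `k` compatibly with `φ`, and the same
for every local extension `O''` of `O` with finite residue field.
-/
import Fermat.Agent.Lib.CompleteDVR.Dedekind
import Fermat.Agent.Gateway.ZbarResidue

set_option autoImplicit false

namespace Fermat.Agent.Gateway.Assembly

open IsLocalRing NumberField

variable (K : IntermediateField ℚ ℂ)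

/-- The inclusion of the ring of integers of a number field `K ⊆ ℂ` into `ℤ̄`. -/
noncomputable def ringOfIntegersToZbar : 𝓞 K →+* integralClosure ℤ ℂ :=
  RingHom.codRestrict ((algebraMap K ℂ).comp (algebraMap (𝓞 K) K)) (integralClosure ℤ ℂ)
    (fun x => by
      show IsIntegral ℤ ((algebraMap K ℂ) ((algebraMap (𝓞 K) K) x))
      exact (NumberField.RingOfIntegers.isIntegral_coe x).algebraMap)

@[simp] theorem coe_ringOfIntegersToZbar (x : 𝓞 K) :
    ((ringOfIntegersToZbar K x : integralClosure ℤ ℂ) : ℂ) = ((x : K) : ℂ) := rfl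

variable [FiniteDimensional ℚ K]

instance ResidueEmbed.numberField : NumberField K :=
  { to_charZero := inferInstance, to_finiteDimensional := inferInstance }

variable (p : ℕ) [hp : Fact p.Prime] {k : Type} [Field k] [CharP k p]
  (φ : integralClosure ℤ ℂ →+* k)

theorem exists_dvr_and_residue_embedding :
    ∃ (O : Type) (_ : CommRing O) (_ : IsDomain O) (_ : IsDiscreteValuationRing O)
      (_ : IsAdicComplete (maximalIdeal O) O) (_ : Finite (ResidueField O)) (_ : CharZero O)
      (ι : 𝓞 K →+* O), (p : O) ∈ maximalIdeal O ∧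
      ∀ (O'' : Type) [CommRing O''] [IsLocalRing O''] [Finite (ResidueField O'')]
        [Algebra O O''] [IsLocalHom (algebraMap O O'')],
        ∃ j : ResidueField O'' →+* k, ∀ x : 𝓞 K,
          j (residue O'' (algebraMap O O'' (ι x))) = φ (ringOfIntegersToZbar K x) := by
  classical
  -- the prime of `𝓞 K` cut out by `φ`
  let φK : 𝓞 K →+* k := φ.comp (ringOfIntegersToZbar K)
  let P : Ideal (𝓞 K) := RingHom.ker φK
  have hPprime : P.IsPrime := RingHom.ker_isPrime φK
  have hpP : (p : 𝓞 K) ∈ P := by
    show φK (p : 𝓞 K) = 0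
    rw [map_natCast, CharP.cast_eq_zero]
  have hP0 : P ≠ ⊥ := by
    intro h
    rw [h, Ideal.mem_bot] at hpP
    exact hp.out.ne_zero (by exact_mod_cast hpP)
  haveI hPmax : P.IsMaximal := hPprime.isMaximal hP0
  obtain ⟨O, i1, i2, i3, i4, i5, i6, ι, hιinj, hιmem, hιsurj⟩ :=
    Fermat.Agent.Lib.CompleteDVR.exists_completeDVR_of_dedekind (𝓞 K) P hP0
  refine ⟨O, i1, i2, i3, i4, i5, i6, ι, ?_, ?_⟩
  · have : (p : O) = ι (p : 𝓞 K) := (map_natCast ι p).symm
    rw [this, hιmem]
    exact hpP
  intro O'' _ _ _ _ _
  -- the residue field `M = ℤ̄ ⧸ ker φ`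
  haveI hmax : (RingHom.ker φ).IsMaximal := ZbarResidue.ker_isMaximal p φ
  letI : Field (integralClosure ℤ ℂ ⧸ RingHom.ker φ) := Ideal.Quotient.field _
  haveI : IsAlgClosed (integralClosure ℤ ℂ ⧸ RingHom.ker φ) := ZbarResidue.isAlgClosed _
  let M := integralClosure ℤ ℂ ⧸ RingHom.ker φ
  let toK : M →+* k := Ideal.Quotient.lift (RingHom.ker φ) φ (fun a ha => ha)
  -- `𝓞 K ⧸ P ≃ κ(O)`
  let f : 𝓞 K →+* ResidueField O := (residue O).comp ι
  have hfsurj : Function.Surjective f := by
    intro z
    obtain ⟨y, rfl⟩ := residue_surjective z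
    obtain ⟨x, hx⟩ := hιsurj y
    refine ⟨x, ?_⟩
    show residue O (ι x) = residue O y
    rw [eq_comm, ← sub_eq_zero, ← map_sub, residue_eq_zero_iff]
    exact hx
  have hfker : RingHom.ker f = P := by
    ext x
    rw [RingHom.mem_ker]
    show residue O (ι x) = 0 ↔ _
    rw [residue_eq_zero_iff, hιmem]
  let e : (𝓞 K ⧸ RingHom.ker f) ≃+* ResidueField O :=
    RingHom.quotientKerEquivOfSurjective hfsurj
  let g : (𝓞 K ⧸ RingHom.ker f) →+* M :=
    Ideal.Quotient.lift (RingHom.ker f)
      ((Ideal.Quotient.mk (RingHom.ker φ)).comp (ringOfIntegersToZbar K)) (fun a ha => by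
        rw [hfker] at ha
        rw [RingHom.comp_apply, Ideal.Quotient.eq_zero_iff_mem]
        exact ha)
  let ψ' : ResidueField O →+* M := g.comp e.symm.toRingHom
  have hψ' : ∀ x : 𝓞 K, ψ' (residue O (ι x))
      = Ideal.Quotient.mk (RingHom.ker φ) (ringOfIntegersToZbar K x) := by
    intro x
    have : e.symm (residue O (ι x)) = Ideal.Quotient.mk (RingHom.ker f) x := by
      rw [RingEquiv.symm_apply_eq]
      rfl
    show g (e.symm (residue O (ι x))) = _
    rw [this]
    rfl
  -- lift along the algebraic extension `κ(O'') / κ(O)`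
  letI : Algebra (ResidueField O) M := ψ'.toAlgebra
  haveI : Module.Finite (ResidueField O) (ResidueField O'') := Module.Finite.of_finite
  haveI : Algebra.IsAlgebraic (ResidueField O) (ResidueField O'') := Algebra.IsAlgebraic.of_finite _ _
  haveI : Module.IsTorsionFree (ResidueField O) M :=
    Module.IsTorsionFree.of_smul_eq_zero (fun r m h => by
      rw [Algebra.smul_def, mul_eq_zero] at h
      rcases h with h | h
      · left; exact (map_eq_zero (algebraMap (ResidueField O) M)).mp h
      · right; exact h)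
  haveI : Module.IsTorsionFree (ResidueField O) (ResidueField O'') :=
    Module.IsTorsionFree.of_smul_eq_zero (fun r m h => by
      rw [Algebra.smul_def, mul_eq_zero] at h
      rcases h with h | h
      · left; exact (map_eq_zero (algebraMap (ResidueField O) (ResidueField O''))).mp h
      · right; exact h)
  let jM : ResidueField O'' →ₐ[ResidueField O] M :=
    IsAlgClosed.lift (R := ResidueField O) (S := ResidueField O'') (M := M)
  refine ⟨toK.comp jM.toRingHom, fun x => ?_⟩
  have h1 : residue O'' (algebraMap O O'' (ι x))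
      = algebraMap (ResidueField O) (ResidueField O'') (residue O (ι x)) := by
    show _ = ResidueField.map (algebraMap O O'') (residue O (ι x))
    rw [ResidueField.map_residue]
  rw [h1]
  show toK (jM (algebraMap (ResidueField O) (ResidueField O'') (residue O (ι x)))) = _
  rw [jM.commutes]
  show toK (ψ' (residue O (ι x))) = _
  rw [hψ' x]
  rfl

end Fermat.Agent.Gateway.Assembly
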