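/-
P-GATEWAY (d), module S29 (helper3).

The reduction `S29 ⇐ S30 + S22`: the residual Galois representation attached to a normalised
eigenform of weight 2 is the reduction of the `𝔭`-adic representation attached to its system
of Hecke eigenvalues.
-/
import Fermat.Agent.Gateway.Statements
import Fermat.Agent.Gateway.EigenChar
import Fermat.Agent.Gateway.Residual
import Fermat.Agent.Gateway.ResidueEmbed

set_option autoImplicit false

namespace Fermat.Agent.Gateway.Assembly

open Polynomial IsLocalRing NumberField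

/-- The trivial two-dimensional residual representation. -/
noncomputable def trivialResidualRep (k : Type) [Field k] : ResidualGaloisRep k where
  V := Fin 2 → k
  finrank_eq := by rw [Module.finrank_fin_fun]
  ρ := 1
  factorsThroughFiniteLevel := ⟨⊥, inferInstance, fun _ _ => rfl⟩

/-- The image of a ring homomorphism from a finite `ℤ`-algebra to `ℂ` lies in a number field. -/
theorem exists_numberField_of_finite {T : Type*} [CommRing T] [Module.Finite ℤ T] (χ : T →+* ℂ) :
    ∃ K : IntermediateField ℚ ℂ, FiniteDimensional ℚ K ∧ ∀ t : T, χ t ∈ K := by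
  classical
  obtain ⟨s, hs⟩ := (Module.finite_def (R := ℤ) (M := T)).mp inferInstance
  refine ⟨IntermediateField.adjoin ℚ ((fun t => χ t) '' (s : Set T)), ?_, ?_⟩
  · apply IntermediateField.finiteDimensional_adjoin
    rintro x ⟨t, -, rfl⟩
    have ht : IsIntegral ℤ t := IsIntegral.of_finite ℤ t
    have h2 : IsIntegral ℤ (χ t) := ht.map χ.toIntAlgHom
    exact h2.tower_top
  · intro t
    have ht : t ∈ Submodule.span ℤ (s : Set T) := by rw [hs]; trivial
    induction ht using Submodule.span_induction with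
    | mem x hx => exact IntermediateField.subset_adjoin ℚ _ ⟨x, hx, rfl⟩
    | zero => rw [map_zero]; exact zero_mem _
    | add x y _ _ hx hy => rw [map_add]; exact add_mem hx hy
    | smul n x _ hx =>
      rw [zsmul_eq_mul, map_mul, map_intCast]
      exact mul_mem (intCast_mem _ n) hx

theorem s29_of_s30 (h22 : S22Statement) (h30 : S30Statement) : S29Statement := by
  classical
  intro N g hg p hp k _ _ φ
  have : Fact p.Prime := ⟨hp⟩
  rcases Nat.eq_zero_or_pos N with hN | hN
  · -- level `0`: every prime divides the level, so the conditions are vacuous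
    subst hN
    refine ⟨trivialResidualRep k, ?_, ?_⟩
    · intro ℓ _ hℓN
      exact absurd (dvd_zero ℓ) hℓN
    · intro ℓ _ hℓN
      exact absurd (by rw [zero_mul]; exact dvd_zero ℓ) hℓN
  have : NeZero N := ⟨hN.ne'⟩
  -- the set of bad primes
  let S : Finset ℕ := insert p N.primeFactors
  have hpS : p ∈ S := Finset.mem_insert_self _ _
  have hNS : ∀ q : ℕ, q.Prime → q ∣ N → q ∈ S := fun q hq hqN =>
    Finset.mem_insert_of_mem (Nat.mem_primeFactors.mpr ⟨hq, hqN, hN.ne'⟩)
  have hNS' : ∀ q : ℕ, q.Prime → q ∣ N → q ∈ (↑S : Set ℕ) := fun q hq hqN =>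
    Finset.mem_coe.mpr (hNS q hq hqN)
  have hfin : Module.Finite ℤ (CuspForm.heckeAlgebra N 2 (↑S : Set ℕ)) := h22 N 2 _
  -- the eigencharacter, with values in a number field `K ⊆ ℂ`
  let χ₀ : CuspForm.heckeAlgebra N 2 (↑S : Set ℕ) →+* ℂ := eigenChar hNS' hg
  have hint : ∀ t, IsIntegral ℤ (χ₀ t) := fun t => eigenChar_isIntegral hNS' hg hfin t
  obtain ⟨K, hKfin, hK⟩ := exists_numberField_of_finite χ₀
  have := hKfin
  let χK : CuspForm.heckeAlgebra N 2 (↑S : Set ℕ) →+* K := RingHom.codRestrict χ₀ K hK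
  have hχK : ∀ t, ((χK t : K) : ℂ) = χ₀ t := fun t => rfl
  have hintK : ∀ t, χK t ∈ integralClosure ℤ K := by
    intro t
    show IsIntegral ℤ (χK t)
    have h := hint t
    rw [← hχK t] at h
    exact (isIntegral_algebraMap_iff (algebraMap K ℂ).injective).mp h
  let χ₁ : CuspForm.heckeAlgebra N 2 (↑S : Set ℕ) →+* 𝓞 K :=
    RingHom.codRestrict χK (integralClosure ℤ K) hintK
  have hχ₁ : ∀ t, (((χ₁ t : 𝓞 K) : K) : ℂ) = χ₀ t := fun t => rfl
  -- the complete discrete valuation ring
  obtain ⟨O, i1, i2, i3, i4, i5, i6, ι, hpO, hO''⟩ := exists_dvr_and_residue_embedding K p φ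
  let χ : CuspForm.heckeAlgebra N 2 (↑S : Set ℕ) →+* O := ι.comp χ₁
  obtain ⟨O'', j1, j2, j3, j4, j5, j6, j7, j8, j9, -, ρ, hchar, hunr⟩ :=
    h30 p N S hpS hNS O hpO χ
  obtain ⟨j, hj⟩ := hO'' O''
  refine ⟨residualAlong ρ j, ?_, ?_⟩
  · intro ℓ hℓ hℓN hℓk A hA σ hσ
    have hℓp : ℓ ≠ p := by
      rintro rfl
      exact hℓk (CharP.cast_eq_zero k ℓ)
    have hℓS : ℓ ∉ (↑S : Set ℕ) := by
      intro h
      rcases Finset.mem_insert.mp (Finset.mem_coe.mp h) with h | h
      · exact hℓp h
      · exact hℓN (Nat.dvd_of_mem_primeFactors h)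
    refine ⟨⟨χ₀ (CuspForm.heckeAlgebra.T hℓ hℓN hℓS), hint _⟩, ?_, ?_⟩
    · exact eigenChar_T hNS' hg hℓ hℓN hℓS
    · rw [residualAlong_charpoly, hchar ℓ hℓ hℓN hℓS A hA σ hσ]
      simp only [Polynomial.map_add, Polynomial.map_sub, Polynomial.map_mul, Polynomial.map_pow,
        Polynomial.map_X, Polynomial.map_C, map_natCast]
      have key : (j.comp (residue O'')) ((algebraMap O O'')
          (χ (CuspForm.heckeAlgebra.T hℓ hℓN hℓS)))
          = φ ⟨χ₀ (CuspForm.heckeAlgebra.T hℓ hℓN hℓS), hint _⟩ := by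
        show j (residue O'' (algebraMap O O'' (ι (χ₁ (CuspForm.heckeAlgebra.T hℓ hℓN hℓS))))) = _
        rw [hj]
        congr 1
      rw [key, Polynomial.map_natCast]
  · intro ℓ hℓ hℓNp
    have hℓN : ¬ ℓ ∣ N := fun h => hℓNp (Dvd.dvd.mul_right h p)
    have hℓp : ℓ ≠ p := by
      rintro rfl
      exact hℓNp (Dvd.intro_left N rfl)
    exact residualAlong_isUnramifiedAt ρ j (hunr ℓ hℓ hℓN hℓp)

end Fermat.Agent.Gateway.Assembly
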