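import Mathlib
import Fermat.Agent.Gateway.S31.Approx
import Fermat.Agent.Gateway.S31.TraceLemma

/-!
# S31 and S34 from torsion level data and Frobenius density

`s31_of_data`: the frozen statement S31 (a Hecke-Galois datum is unramified outside `S`) follows from
`FrobPowerDense` and `TorsionHeckeData p N S` that is unramified outside `S`.

`s34_of_data`: the frozen statement S34 (unipotent inertia at `q` exactly dividing `N`, `q ≠ p`)
follows from `FrobPowerDense` and `TorsionHeckeData p N S` that is semistable at `q`.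
-/

set_option autoImplicit false

namespace Fermat.Agent.Gateway.S31Red

open Polynomial

local notation "Γℚ" => (AlgebraicClosure ℚ ≃ₐ[ℚ] AlgebraicClosure ℚ)

section Aux

variable {p : ℕ} {N : ℕ} [NeZero N] {S : Finset ℕ}

/-- Two exponents which agree on a primitive `m`-th root of unity are congruent modulo `m`. -/
lemma modEq_of_pow_eq {K : Type*} [Field K] {ζ : K} {m : ℕ}
    (hζ : IsPrimitiveRoot ζ m) (hm : m ≠ 0) {e1 e2 : ℕ} (h : ζ ^ e1 = ζ ^ e2) :
    e1 ≡ e2 [MOD m] := by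
  have hfin : IsOfFinOrder ζ :=
    isOfFinOrder_iff_pow_eq_one.mpr ⟨m, Nat.pos_of_ne_zero hm, hζ.pow_eq_one⟩
  have := hfin.pow_eq_pow_iff_modEq.mp h
  rwa [← hζ.eq_orderOf] at this

/-- Congruent naturals have casts congruent modulo the ideal generated by the modulus. -/
lemma natCast_sub_natCast_mem {T : Type*} [CommRing T] {m e1 e2 : ℕ} (h : e1 ≡ e2 [MOD m])
    (I : Ideal T) (hI : (m : T) ∈ I) : (e1 : T) - (e2 : T) ∈ I := by
  have h1 : (m : ℤ) ∣ (e2 : ℤ) - (e1 : ℤ) := (Nat.modEq_iff_dvd).mp h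
  obtain ⟨c, hc⟩ := h1
  have : (e1 : T) - (e2 : T) = -((m : T) * (c : T)) := by
    have := congrArg (fun z : ℤ => (z : T)) hc
    simp only [Int.cast_sub, Int.cast_natCast, Int.cast_mul] at this
    linear_combination -this
  rw [this]
  exact I.neg_mem (I.mul_mem_right _ hI)

/-- Two exponents which agree on a primitive `p ^ n`-th root of unity act in the same way on a
group killed by `p ^ n`. -/
lemma natCast_end_eq_of_pow_eq {M : Type*} [AddCommGroup M] {p n : ℕ}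
    (hM : ∀ x : M, (p ^ n) • x = 0) {K : Type*} [Field K] {ζ : K}
    (hζ : IsPrimitiveRoot ζ (p ^ n)) (hn : p ^ n ≠ 0) {e1 e2 : ℕ} (h : ζ ^ e1 = ζ ^ e2) :
    (e1 : AddMonoid.End M) = (e2 : AddMonoid.End M) := by
  have hmod : e1 ≡ e2 [MOD p ^ n] := modEq_of_pow_eq hζ hn h
  ext x
  rw [AddMonoid.End.natCast_apply, AddMonoid.End.natCast_apply]
  have key : ∀ a b : ℕ, a ≤ b → a ≡ b [MOD p ^ n] → a • x = b • x := by
    intro a b hab hmod
    obtain ⟨c, hc⟩ := (Nat.modEq_iff_dvd' hab).mp hmod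
    have : b = a + p ^ n * c := by omega
    rw [this, add_smul, mul_comm, mul_smul, hM, smul_zero, add_zero]
  rcases le_total e1 e2 with h12 | h12
  · exact key e1 e2 h12 hmod
  · exact (key e2 e1 h12 hmod.symm).symm

end Aux

variable {p : ℕ} {N : ℕ} [NeZero N] {S : Finset ℕ}
  {𝒪 : Type} [CommRing 𝒪] [IsDomain 𝒪] [IsDiscreteValuationRing 𝒪]
  [IsAdicComplete (IsLocalRing.maximalIdeal 𝒪) 𝒪]
  {θ : CuspForm.heckeAlgebra N 2 (↑S : Set ℕ) →+* IsLocalRing.ResidueField 𝒪}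
  {T : Type} [CommRing T] [IsLocalRing T] [IsNoetherianRing T]
  [IsAdicComplete (IsLocalRing.maximalIdeal T) T] [Algebra 𝒪 T] [IsLocalHom (algebraMap 𝒪 T)]
  [Module.Finite 𝒪 T] [Module.Free 𝒪 T]

omit [IsDomain 𝒪] [IsDiscreteValuationRing 𝒪] [IsAdicComplete (IsLocalRing.maximalIdeal 𝒪) 𝒪]
  [IsNoetherianRing T] [IsAdicComplete (IsLocalRing.maximalIdeal T) T] [Module.Finite 𝒪 T]
  [Module.Free 𝒪 T] in
lemma natCast_mem_maximalIdeal [IsLocalRing 𝒪] (hp𝒪 : (p : 𝒪) ∈ IsLocalRing.maximalIdeal 𝒪) :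
    (p : T) ∈ IsLocalRing.maximalIdeal T := by
  rw [IsLocalRing.mem_maximalIdeal, mem_nonunits_iff] at hp𝒪 ⊢
  intro hu
  apply hp𝒪
  have : (p : T) = algebraMap 𝒪 T (p : 𝒪) := by rw [map_natCast]
  rw [this] at hu
  exact isUnit_of_map_unit (algebraMap 𝒪 T) _ hu

omit [IsAdicComplete (IsLocalRing.maximalIdeal T) T] in
/-- An element lying in all powers of the maximal ideal vanishes. -/
lemma eq_zero_of_forall_mem_pow {x : T} (h : ∀ n : ℕ, x ∈ IsLocalRing.maximalIdeal T ^ n) :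
    x = 0 := by
  have hbot := Ideal.iInf_pow_eq_bot_of_isLocalRing (IsLocalRing.maximalIdeal T)
    (Ideal.IsMaximal.ne_top inferInstance)
  have : x ∈ ⨅ n : ℕ, IsLocalRing.maximalIdeal T ^ n := by
    rw [Ideal.mem_iInf]; exact h
  rwa [hbot, Ideal.mem_bot] at this

/-- `π` maps `p ^ n`-divisible Hecke operators into `m_T ^ n`. -/
lemma pi_zsmul_mem (hp𝒪 : (p : 𝒪) ∈ IsLocalRing.maximalIdeal 𝒪)
    (H : CuspForm.HeckeGaloisRepDatum N (↑S : Set ℕ) 𝒪 θ T) (n : ℕ)
    (y' : CuspForm.heckeAlgebra N 2 (↑S : Set ℕ)) :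
    H.π (((p : ℤ) ^ n) • y') ∈ IsLocalRing.maximalIdeal T ^ n := by
  rw [zsmul_eq_mul, map_mul, map_intCast, Int.cast_pow, Int.cast_natCast]
  exact Ideal.mul_mem_right _ _ (Ideal.pow_mem_pow (natCast_mem_maximalIdeal hp𝒪) n)

/-- S31 from torsion data and Frobenius density. -/
theorem s31_of_data (hF : FrobPowerDense) (D : TorsionHeckeData p N S)
    (hD : D.IsUnramifiedOutside) (hp : p.Prime)
    (hp𝒪 : (p : 𝒪) ∈ IsLocalRing.maximalIdeal 𝒪) (hpS : p ∈ S)
    (hNS : ∀ q : ℕ, q.Prime → q ∣ N → q ∈ S)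
    (H : CuspForm.HeckeGaloisRepDatum N (↑S : Set ℕ) 𝒪 θ T)
    (q : ℕ) (hq : q.Prime) (hqS : q ∉ S) :
    H.ρ.IsUnramifiedAt q := by
  intro P hP τ hτ
  have hqp : q ≠ p := fun h => hqS (h ▸ hpS)
  obtain ⟨c0, hc0⟩ := D.faithful
  refine eq_one_of_trace_mul_eq H.ρ H.residual_absIrr τ fun g => ?_
  rw [← map_mul, ← sub_eq_zero]
  refine eq_zero_of_forall_mem_pow fun n => ?_
  set m := n + c0 with hm
  have hmn : IsLocalRing.maximalIdeal T ^ m ≤ IsLocalRing.maximalIdeal T ^ n :=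
    Ideal.pow_le_pow_right (Nat.le_add_right n c0)
  obtain ⟨y1, e1, htr1, -, hhe1, hζ1⟩ := exists_approx hF hp hpS hNS H D (g * τ) m
  obtain ⟨y2, e2, htr2, -, hhe2, hζ2⟩ := exists_approx hF hp hpS hNS H D g m
  -- the inertia element acts trivially on the torsion level and on roots of unity
  have hτ1 : D.gal m τ = 1 := hD m q hq hqS P hP τ hτ
  have hτinv : D.gal m τ⁻¹ = 1 := by
    have : D.gal m τ⁻¹ * D.gal m τ = 1 := by rw [← map_mul, inv_mul_cancel, map_one]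
    rwa [hτ1, mul_one] at this
  have hpm0 : p ^ m ≠ 0 := pow_ne_zero m hp.ne_zero
  have : NeZero (p ^ m) := ⟨hpm0⟩
  obtain ⟨ζ0, hζ0⟩ := HasEnoughRootsOfUnity.exists_primitiveRoot (AlgebraicClosure ℚ) (p ^ m)
  have hqpm : ¬ q ∣ p ^ m := fun h =>
    hqp ((Nat.prime_dvd_prime_iff_eq hq hp).mp (hq.dvd_of_dvd_pow h))
  have hτζ : τ ζ0 = ζ0 := apply_rootOfUnity_of_mem_inertia hq hP hτ hqpm hζ0.pow_eq_one
  have hee : (e1 : AddMonoid.End (D.M m)) = (e2 : AddMonoid.End (D.M m)) := by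
    refine natCast_end_eq_of_pow_eq (D.pow_smul m) hζ0 hpm0 ?_
    rw [← hζ1 ζ0 hζ0.pow_eq_one, ← hζ2 ζ0 hζ0.pow_eq_one, AlgEquiv.mul_apply, hτζ]
  have hy : D.hecke m (y1 - y2) = 0 := by
    rw [map_sub, hhe1, hhe2, mul_inv_rev, map_mul, map_mul, hτ1, hτinv, mul_one, one_mul, hee,
      sub_self]
  obtain ⟨y', hy'⟩ := hc0 (y1 - y2) n hy
  have hπ : H.π y1 - H.π y2 ∈ IsLocalRing.maximalIdeal T ^ n := by
    rw [← map_sub, hy']
    exact pi_zsmul_mem hp𝒪 H n y'
  have : LinearMap.trace T H.ρ.V (H.ρ.ρ (g * τ)) - LinearMap.trace T H.ρ.V (H.ρ.ρ g)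
      = (LinearMap.trace T H.ρ.V (H.ρ.ρ (g * τ)) - H.π y1) + (H.π y1 - H.π y2)
        - (LinearMap.trace T H.ρ.V (H.ρ.ρ g) - H.π y2) := by ring
  rw [this]
  exact Ideal.sub_mem _ (Ideal.add_mem _ (hmn htr1) hπ) (hmn htr2)

omit [IsLocalRing T] [IsNoetherianRing T] [IsAdicComplete (IsLocalRing.maximalIdeal T) T] in
/-- The characteristic polynomial in rank two. -/
lemma charpoly_eq_of_finrank_two [Nontrivial T] {V : Type*} [AddCommGroup V] [Module T V]
    [Module.Free T V] [Module.Finite T V] (hrank : Module.finrank T V = 2) (f : Module.End T V) :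
    LinearMap.charpoly f = X ^ 2 - C (LinearMap.trace T V f) * X + C (LinearMap.det f) := by
  let b : Module.Basis (Fin 2) T V := Module.finBasisOfFinrankEq T V hrank
  rw [← LinearMap.charpoly_toMatrix f b, Matrix.charpoly_fin_two,
    LinearMap.trace_eq_matrix_trace T b f, LinearMap.det_toMatrix b f]

/-- S34 from torsion data and Frobenius density. -/
theorem s34_of_data (hF : FrobPowerDense) (D : TorsionHeckeData p N S) (hp : p.Prime)
    (hp𝒪 : (p : 𝒪) ∈ IsLocalRing.maximalIdeal 𝒪) (hpS : p ∈ S)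
    (hNS : ∀ q : ℕ, q.Prime → q ∣ N → q ∈ S)
    (H : CuspForm.HeckeGaloisRepDatum N (↑S : Set ℕ) 𝒪 θ T)
    (q : ℕ) (hq : q.Prime) (hqp : q ≠ p) (hD : D.IsSemistableAt q) :
    H.ρ.IsUnipotentOnInertiaAt q := by
  intro P hP τ hτ
  obtain ⟨c0, hc0⟩ := D.faithful
  have hpT : (p : T) ∈ IsLocalRing.maximalIdeal T := natCast_mem_maximalIdeal hp𝒪
  -- trace and determinant are `2` and `1` modulo every power of the maximal ideal
  have key : ∀ n : ℕ, LinearMap.trace T H.ρ.V (H.ρ.ρ τ) - 2 ∈ IsLocalRing.maximalIdeal T ^ n ∧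
      LinearMap.det (H.ρ.ρ τ) - 1 ∈ IsLocalRing.maximalIdeal T ^ n := by
    intro n
    set m := n + c0 with hm
    have hmn : IsLocalRing.maximalIdeal T ^ m ≤ IsLocalRing.maximalIdeal T ^ n :=
      Ideal.pow_le_pow_right (Nat.le_add_right n c0)
    obtain ⟨y, e, htr, hdet, hhe, hζ⟩ := exists_approx hF hp hpS hNS H D τ m
    have hpm0 : p ^ m ≠ 0 := pow_ne_zero m hp.ne_zero
    have : NeZero (p ^ m) := ⟨hpm0⟩
    obtain ⟨ζ0, hζ0⟩ := HasEnoughRootsOfUnity.exists_primitiveRoot (AlgebraicClosure ℚ) (p ^ m)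
    have hqpm : ¬ q ∣ p ^ m := fun h =>
      hqp ((Nat.prime_dvd_prime_iff_eq hq hp).mp (hq.dvd_of_dvd_pow h))
    have hτζ : τ ζ0 = ζ0 := apply_rootOfUnity_of_mem_inertia hq hP hτ hqpm hζ0.pow_eq_one
    have hpow : ζ0 ^ e = ζ0 ^ 1 := by rw [← hζ ζ0 hζ0.pow_eq_one, hτζ, pow_one]
    have hmod : e ≡ 1 [MOD p ^ m] := modEq_of_pow_eq hζ0 hpm0 hpow
    have hee : (e : AddMonoid.End (D.M m)) = 1 := by
      have := natCast_end_eq_of_pow_eq (D.pow_smul m) hζ0 hpm0 hpow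
      rwa [Nat.cast_one] at this
    -- `τ + τ⁻¹ = 2` on the torsion level
    set a := D.gal m τ with ha
    set a' := D.gal m τ⁻¹ with ha'
    have haa' : a * a' = 1 := by rw [ha, ha', ← map_mul, mul_inv_cancel, map_one]
    have hss : (a - 1) * (a - 1) = 0 := hD m P hP τ hτ
    have hsum : a + a' = 2 := by
      have h1 : (a - 1) * (a - 1) * a' = 0 := by rw [hss, zero_mul]
      have h2 : (a - 1) * (a - 1) * a' = a - 2 + a' := by
        have : (a - 1) * (a - 1) * a' = a * (a * a') - 2 * (a * a') + a' := by noncomm_ring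
        rw [this, haa', mul_one, mul_one]
      rw [h2] at h1
      have : a + a' = 2 := by
        have h3 : a - 2 + a' = (a + a') - 2 := by abel
        rw [h3, sub_eq_zero] at h1
        exact h1
      exact this
    have hy : D.hecke m (y - 2) = 0 := by
      rw [map_sub, hhe, hee, one_mul, hsum, map_ofNat, sub_self]
    obtain ⟨y', hy'⟩ := hc0 (y - 2) n hy
    have hπ : H.π y - 2 ∈ IsLocalRing.maximalIdeal T ^ n := by
      have : H.π y - 2 = H.π (y - 2) := by rw [map_sub, map_ofNat]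
      rw [this, hy']
      exact pi_zsmul_mem hp𝒪 H n y'
    refine ⟨?_, ?_⟩
    · have : LinearMap.trace T H.ρ.V (H.ρ.ρ τ) - 2
          = (LinearMap.trace T H.ρ.V (H.ρ.ρ τ) - H.π y) + (H.π y - 2) := by ring
      rw [this]
      exact Ideal.add_mem _ (hmn htr) hπ
    · have h1 : (e : T) - ((1 : ℕ) : T) ∈ IsLocalRing.maximalIdeal T ^ m := by
        refine natCast_sub_natCast_mem hmod _ ?_
        rw [Nat.cast_pow]
        exact Ideal.pow_mem_pow hpT m
      rw [Nat.cast_one] at h1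
      have : LinearMap.det (H.ρ.ρ τ) - 1
          = (LinearMap.det (H.ρ.ρ τ) - (e : T)) + ((e : T) - 1) := by ring
      rw [this]
      exact hmn (Ideal.add_mem _ hdet h1)
  have htr : LinearMap.trace T H.ρ.V (H.ρ.ρ τ) = 2 :=
    sub_eq_zero.mp (eq_zero_of_forall_mem_pow fun n => (key n).1)
  have hdet : LinearMap.det (H.ρ.ρ τ) = 1 :=
    sub_eq_zero.mp (eq_zero_of_forall_mem_pow fun n => (key n).2)
  rw [charpoly_eq_of_finrank_two H.ρ.finrank_eq, htr, hdet]
  simp only [map_ofNat, map_one]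
  ring

end Fermat.Agent.Gateway.S31Red
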