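import Mathlib

/-!
The canonical ring homomorphism from the `p`-adic integers to a complete local ring whose
residue characteristic is `p`.
-/

set_option autoImplicit false

namespace Fermat.Agent.Gateway

open IsLocalRing

section

variable (p : ℕ) [Fact p.Prime]

/-- A ring homomorphism out of `ℤ_[p]` into a ring in which `p ^ n = 0` is determined on the
approximations. -/
theorem padicHom_apply_eq_appr {R : Type*} [Ring R] (φ : ℤ_[p] →+* R) (n : ℕ)
    (hn : (p : R) ^ n = 0) (x : ℤ_[p]) : φ x = ((x.appr n : ℕ) : R) := by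
  have h := PadicInt.appr_spec n x
  rw [Ideal.mem_span_singleton] at h
  obtain ⟨y, hy⟩ := h
  have : x = (x.appr n : ℤ_[p]) + (p : ℤ_[p]) ^ n * y := by rw [← hy]; ring
  conv_lhs => rw [this]
  rw [map_add, map_mul, map_pow, map_natCast, map_natCast, hn, zero_mul, add_zero]

theorem padicHom_ext_of_pow_eq_zero {R : Type*} [Ring R] (φ ψ : ℤ_[p] →+* R) (n : ℕ)
    (hn : (p : R) ^ n = 0) : φ = ψ := by
  ext x
  rw [padicHom_apply_eq_appr p φ n hn, padicHom_apply_eq_appr p ψ n hn]

variable (O : Type*) [CommRing O] [IsLocalRing O]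

theorem natCast_pow_quotient_eq_zero (hp : (p : O) ∈ maximalIdeal O) (n : ℕ) :
    ((p : O ⧸ maximalIdeal O ^ n)) ^ n = 0 := by
  have : ((p : O) ^ n) ∈ maximalIdeal O ^ n := Ideal.pow_mem_pow hp n
  have h2 := (Ideal.Quotient.eq_zero_iff_mem).2 this
  rw [map_pow, map_natCast] at h2
  exact h2

/-- the level `n` map `ℤ_[p] → O ⧸ m ^ n` -/
noncomputable def padicToQuotient (hp : (p : O) ∈ maximalIdeal O) (n : ℕ) :
    ℤ_[p] →+* O ⧸ maximalIdeal O ^ n :=
  haveI : CharP (O ⧸ maximalIdeal O ^ n) (ringChar (O ⧸ maximalIdeal O ^ n)) := ringChar.charP _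
  (ZMod.castHom (show ringChar (O ⧸ maximalIdeal O ^ n) ∣ p ^ n from by
    apply ringChar.dvd
    rw [Nat.cast_pow]
    exact natCast_pow_quotient_eq_zero p O hp n) (O ⧸ maximalIdeal O ^ n)).comp
    (PadicInt.toZModPow n)

variable [IsAdicComplete (maximalIdeal O) O]

/-- The canonical map `ℤ_[p] → O` for a complete local ring with `p` in the maximal ideal. -/
noncomputable def padicToComplete (hp : (p : O) ∈ maximalIdeal O) : ℤ_[p] →+* O :=
  IsAdicComplete.liftRingHom (maximalIdeal O) (fun n => padicToQuotient p O hp n)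
    (fun {m n} hle => padicHom_ext_of_pow_eq_zero p _ _ m (natCast_pow_quotient_eq_zero p O hp m))

end

end Fermat.Agent.Gateway
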