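import Mathlib
import Fermat.Agent.Gateway.S31.FromExport

/-!
# S34 from the export contract of the Jacobian team (P-S34, (T1))

The additional clause of the export contract needed for S34:

* `TorsionSemistable N` (E8): for a prime `q` exactly dividing `N` and `m` prime to `q`, every
  element `τ` of an inertia group at `q` satisfies `(τ - 1)² = 0` on the `m`-torsion of `J₀(N)`
  over `ℚ̄`.

With E2-E4, E6, E7 (the `TorsionHeckeData` of `Gateway/S31/FromExport.lean`) this gives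
`TorsionHeckeData.IsSemistableAt` and, with Frobenius density, the frozen statement S34
(`s34_of_export`).
-/

set_option autoImplicit false

namespace Fermat.Agent.Gateway.S31Red

open ModularCurve AlgebraicCurve CuspForm

local notation "Qb" => AlgebraicClosure ℚ
local notation "Γℚ" => (AlgebraicClosure ℚ ≃ₐ[ℚ] AlgebraicClosure ℚ)

/-- E8: inertia at a prime `q` exactly dividing `N` acts unipotently (of level two) on the
`m`-torsion of `J₀(N)`, for `m` prime to `q`. -/
def TorsionSemistable (N : ℕ) : Prop :=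
  ∀ (m q : ℕ), q.Prime → q ∣ N → ¬ q ^ 2 ∣ N → ¬ q ∣ m →
    ∀ A : ValuationSubring Qb, A.LiesOverPrime q →
      ∀ τ ∈ A.inertiaSubgroupIn ℚ, ∀ x : JZero N, m • x = 0 →
        τ • τ • x - 2 • (τ • x) + x = 0

section Glue

variable {N : ℕ} [NeZero N] {S : Finset ℕ}

/-- The torsion data of the export contract is semistable at every prime `q ≠ p` exactly dividing
the level. -/
theorem isSemistableAt_of_export {p : ℕ} (hp : p.Prime) (hpS : p ∈ S)
    (hNS : ∀ q : ℕ, q.Prime → q ∣ N → q ∈ S)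
    (E : HeckeTorsionAction N S) (h4 : GaloisHeckeComm N) (h6 : TorsionEichlerShimura N)
    (h7 : TorsionGalLevel N) (h8 : TorsionSemistable N)
    (q : ℕ) (hq : q.Prime) (hqp : q ≠ p) (hqN : q ∣ N) (hq2 : ¬ q ^ 2 ∣ N) :
    (torsionHeckeDataOfExport hp hpS hNS E h4 h6 h7).IsSemistableAt q := by
  intro n P hP τ hτ
  have hdiv : ¬ q ∣ p ^ n := fun h =>
    hqp ((Nat.prime_dvd_prime_iff_eq hq hp).mp (hq.dvd_of_dvd_pow h))
  change (galTors N (p ^ n) τ - 1) * (galTors N (p ^ n) τ - 1) = 0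
  ext x
  have h := h8 (p ^ n) q hq hqN hq2 hdiv P hP τ hτ x (nsmul_coe_eq_zero x)
  have e : ((galTors N (p ^ n) τ - 1) * (galTors N (p ^ n) τ - 1)) x =
      galTors N (p ^ n) τ (galTors N (p ^ n) τ x) - 2 • galTors N (p ^ n) τ x + x := by
    have e0 : ((galTors N (p ^ n) τ - 1) * (galTors N (p ^ n) τ - 1)) x =
        galTors N (p ^ n) τ (galTors N (p ^ n) τ x - x) - (galTors N (p ^ n) τ x - x) := rfl
    rw [e0, map_sub, two_nsmul]
    abel
  rw [e]
  change ((galTors N (p ^ n) τ (galTors N (p ^ n) τ x) - 2 • galTors N (p ^ n) τ x + x :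
    JTors N (p ^ n)) : JZero N) = 0
  rw [AddSubgroup.coe_add, AddSubgroup.coe_sub, AddSubgroupClass.coe_nsmul, coe_galTors_apply,
    coe_galTors_apply]
  exact h

end Glue

section Final

variable {p : ℕ} {N : ℕ} [NeZero N] {S : Finset ℕ}
  {𝒪 : Type} [CommRing 𝒪] [IsDomain 𝒪] [IsDiscreteValuationRing 𝒪]
  [IsAdicComplete (IsLocalRing.maximalIdeal 𝒪) 𝒪]
  {θ : CuspForm.heckeAlgebra N 2 (↑S : Set ℕ) →+* IsLocalRing.ResidueField 𝒪}
  {T : Type} [CommRing T] [IsLocalRing T] [IsNoetherianRing T]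
  [IsAdicComplete (IsLocalRing.maximalIdeal T) T] [Algebra 𝒪 T] [IsLocalHom (algebraMap 𝒪 T)]
  [Module.Finite 𝒪 T] [Module.Free 𝒪 T]

/-- The frozen statement S34 from Frobenius density and the export contract E2 - E4, E6 - E8. -/
theorem s34_of_export (hF : Fermat.Agent.Lib.FrobDensity.FrobPowerDense)
    (E : HeckeTorsionAction N S) (h4 : GaloisHeckeComm N)
    (h6 : TorsionEichlerShimura N) (h7 : TorsionGalLevel N) (h8 : TorsionSemistable N)
    (hp : p.Prime) (hp𝒪 : (p : 𝒪) ∈ IsLocalRing.maximalIdeal 𝒪) (hpS : p ∈ S)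
    (hNS : ∀ q : ℕ, q.Prime → q ∣ N → q ∈ S)
    (H : CuspForm.HeckeGaloisRepDatum N (↑S : Set ℕ) 𝒪 θ T)
    (q : ℕ) (hq : q.Prime) (hqp : q ≠ p) (hqN : q ∣ N) (hq2 : ¬ q ^ 2 ∣ N) :
    H.ρ.IsUnipotentOnInertiaAt q :=
  s34_of_data (frobPowerDense_of_lib hF) (torsionHeckeDataOfExport hp hpS hNS E h4 h6 h7)
    hp hp𝒪 hpS hNS H q hq hqp
    (isSemistableAt_of_export hp hpS hNS E h4 h6 h7 h8 q hq hqp hqN hq2)

end Final

end Fermat.Agent.Gateway.S31Red
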