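import Fermat.Agent.Gateway.Descent.KummerGlue
import Fermat.Agent.Gateway.Kummer.Export
import Fermat.Agent.Gateway.Kummer.S18Glue
import Fermat.Agent.Gateway.GoodRed.GaussNorm
import Fermat.Agent.Gateway.HK1.Modular
import Fermat.Agent.Gateway.Hecke.C1Qbar
import Fermat.Agent.Gateway.FkBasics.Modular
import Fermat.Agent.Gateway.S30.FromCoreInputs

/-!
# P-GATEWAY (c), Tier 1: final integration

Everything in Tier 1 of part (c) from the single remaining input

`GoodLevelC0` : (C0) `= Kummer.KummerRedInj M A m` at the *good* levels `M`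
(`4 ∣ M` for odd `ℓ`, `9 ∣ M` for `ℓ = 2`), to be supplied by `C0/Instantiate.lean`.

* `kummerRedInj_of_goodLevelC0` : (C0) at every level (descent `M = lcm N 4 / lcm N 9 → N`);
* `torsionUnramified_of_goodLevelC0` : E5, `S31Red.TorsionUnramified N`;
* `torsionEichlerShimura_of_goodLevelC0` : E6, `S31Red.TorsionEichlerShimura N`;
* `s18_of_goodLevelC0` : the frozen statement S18;
* `exportInputs_of_goodLevelC0` : `Assembly.ExportInputs` (from `GoodLevelC0` and the core inputs).
-/

set_option autoImplicit false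

noncomputable section

namespace Fermat.Agent.Gateway.Tier1

open ModularCurve AlgebraicCurve Fermat.Agent.Gateway.Kummer

local notation "Qb" => AlgebraicClosure ℚ

/-- (C0) at all good levels: the single remaining input of Tier 1. -/
def GoodLevelC0 : Prop :=
  ∀ (M : ℕ) [NeZero M] (m ℓ : ℕ), ℓ.Prime → ¬ ℓ ∣ m * M →
    ((ℓ ≠ 2 ∧ 4 ∣ M) ∨ (ℓ = 2 ∧ 9 ∣ M)) →
    ∀ A : ValuationSubring Qb, A.LiesOverPrime ℓ → KummerRedInj M A m

/-- (C0) at every level. -/
theorem kummerRedInj_of_goodLevelC0 (h : GoodLevelC0) (N : ℕ) [NeZero N] :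
    ∀ m ℓ : ℕ, ℓ.Prime → ¬ ℓ ∣ m * N → ∀ A : ValuationSubring Qb, A.LiesOverPrime ℓ →
      KummerRedInj N A m :=
  Descent.kummerRedInj_all_of_good N h

/-- E5. -/
theorem torsionUnramified_of_goodLevelC0 (h : GoodLevelC0) (N : ℕ) [NeZero N] :
    S31Red.TorsionUnramified N :=
  Kummer.torsionUnramified N (GoodRed.gaussNormalisable N) (kummerRedInj_of_goodLevelC0 h N)

/-- E6. -/
theorem torsionEichlerShimura_of_goodLevelC0 (h : GoodLevelC0) (N : ℕ) [NeZero N] :
    S31Red.TorsionEichlerShimura N :=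
  Kummer.torsionEichlerShimura N
    (fun ℓ hℓ _ => by
      have : NeZero ℓ := ⟨hℓ.ne_zero⟩
      exact HK1.heckeInputsAlong_algebraicClosure N ℓ)
    (fun ℓ hℓ hℓN => Hecke.C1Qbar.exists_normQExpFormula N ℓ hℓ hℓN)
    (GoodRed.gaussNormalisable N) (kummerRedInj_of_goodLevelC0 h N)

/-- The frozen statement S18. -/
theorem s18_of_goodLevelC0 (h : GoodLevelC0) (N : ℕ) [NeZero N] {ℓ : ℕ}
    [Fact ℓ.Prime] (hℓN : ¬ ℓ ∣ N) (A : ValuationSubring (AlgebraicClosure ℚ))
    (hA : A.LiesOverPrime ℓ)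
    (hred : ModularCurve.ReductionInputsModL A N) (m : ℕ) (hm : ¬ ℓ ∣ m) (z : ModularCurve.JZero N)
    (hmz : m • z = 0) (hz : ModularCurve.reductionModL A N z = 0) :
    z = 0 := by
  have hℓ : ℓ.Prime := Fact.out
  have hdvd : ¬ ℓ ∣ m * N := fun hd => (hℓ.dvd_mul.mp hd).elim hm hℓN
  exact s18_of_kummerRedInj N A (FkBasics.hconstk_residueField N hℓN A hA) m hm
    (kummerRedInj_of_goodLevelC0 h N m ℓ hℓ hdvd A hA) hred z hmz hz

/-- The export contract of part (d) from `GoodLevelC0` and the core inputs of parts (a), (b). -/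
theorem exportInputs_of_goodLevelC0 (h : GoodLevelC0)
    (hcore : ∀ (N : ℕ) [NeZero N], Nonempty (Export.CoreInputs N)) :
    Assembly.ExportInputs where
  core := hcore
  unram := fun N _ => torsionUnramified_of_goodLevelC0 h N
  eichlerShimura := fun N _ => torsionEichlerShimura_of_goodLevelC0 h N

end Fermat.Agent.Gateway.Tier1
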