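/-
helper62 (P-GATEWAY (d)).  The extra input `FreyTorsionFiniteLevel` of `s42_of_s29` (helper3)
reduced to the finiteness of the `p`-torsion of the Frey curve over `ℚ̄`: a finite Galois-stable
set of points is fixed by the automorphisms fixing the (finitely many, algebraic) coordinates.
-/
import Mathlib
import Fermat.Prelude.Def_GaloisRep_Residual
import Fermat.Prelude.Def_EllipticCurve_FrobeniusTrace
import Fermat.Agent.Lib.FrobeniusExists
import Fermat.Agent.Gateway.S42

set_option autoImplicit false

open scoped WeierstrassCurve.Affine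
open WeierstrassCurve.Affine.Point

namespace Fermat.Agent.Gateway.TorsionLevel

/-- `x`-coordinate of a point (junk `0` at infinity). -/
noncomputable def xc {F : Type*} [Field F] {W : WeierstrassCurve.Affine F} :
    W.Point → F
  | .zero => 0
  | .some x _ _ => x

/-- `y`-coordinate of a point (junk `0` at infinity). -/
noncomputable def yc {F : Type*} [Field F] {W : WeierstrassCurve.Affine F} :
    W.Point → F
  | .zero => 0
  | .some _ y _ => y

section general

variable (W : WeierstrassCurve ℚ) (n : ℕ) [DecidableEq (AlgebraicClosure ℚ)]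

theorem smul_eq_self_of_fixes
    (σ : AlgebraicClosure ℚ ≃ₐ[ℚ] AlgebraicClosure ℚ)
    (P : (W.toAffine⁄(AlgebraicClosure ℚ)).Point) (hx : σ (xc P) = xc P) (hy : σ (yc P) = yc P) :
    σ • P = P := by
  rw [algEquiv_smul_def]
  cases P with
  | zero => rfl
  | some x y h =>
    simp only [xc, yc] at hx hy
    simp [WeierstrassCurve.Affine.Point.map, hx, hy]

theorem galoisFactorsThroughFiniteLevel_of_finite
    (hfin : Finite (Submodule.torsionBy ℤ (W.toAffine⁄(AlgebraicClosure ℚ)).Point n)) :
    GaloisFactorsThroughFiniteLevel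
      (galoisRepModuleEnd (S := ℚ) (K := AlgebraicClosure ℚ) W.toAffine n) := by
  classical
  let T := Submodule.torsionBy ℤ (W.toAffine⁄(AlgebraicClosure ℚ)).Point n
  let s : Set (AlgebraicClosure ℚ) :=
    Set.range (fun P : T => xc (P : (W.toAffine⁄(AlgebraicClosure ℚ)).Point)) ∪
      Set.range (fun P : T => yc (P : (W.toAffine⁄(AlgebraicClosure ℚ)).Point))
  have hs : s.Finite := (Set.finite_range _).union (Set.finite_range _)
  refine ⟨IntermediateField.adjoin ℚ s, ?_, fun σ hσ => ?_⟩
  · have : Finite s := hs.to_subtype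
    have hgal : IsGalois ℚ (AlgebraicClosure ℚ) := Fermat.Agent.Lib.isGalois_algebraicClosure_rat
    have halg : Algebra.IsAlgebraic ℚ (AlgebraicClosure ℚ) := inferInstance
    exact IntermediateField.finiteDimensional_adjoin
      (fun x _ => (Algebra.IsAlgebraic.isAlgebraic (R := ℚ) x).isIntegral)
  · apply LinearMap.ext
    intro P
    rw [galoisRepModuleEnd_apply]
    apply Subtype.ext
    show σ • (P : (W.toAffine⁄(AlgebraicClosure ℚ)).Point) = P
    apply smul_eq_self_of_fixes
    · exact hσ _ (IntermediateField.subset_adjoin ℚ s (Or.inl ⟨P, rfl⟩))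
    · exact hσ _ (IntermediateField.subset_adjoin ℚ s (Or.inr ⟨P, rfl⟩))

end general

/-- The only extra input of `S42`: it follows from the finiteness of the `p`-torsion of the Frey
curve over `ℚ̄`. -/
theorem freyTorsionFiniteLevel_of_finite
    (h : ∀ P : FreyPackage,
      letI : DecidableEq (AlgebraicClosure ℚ) := Classical.decEq _
      Finite (Submodule.torsionBy ℤ (P.freyCurve.toAffine⁄(AlgebraicClosure ℚ)).Point P.p)) :
    Fermat.Agent.Gateway.Assembly.FreyTorsionFiniteLevel := by
  intro P
  let _ : DecidableEq (AlgebraicClosure ℚ) := Classical.decEq _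
  exact galoisFactorsThroughFiniteLevel_of_finite P.freyCurve P.p (h P)

end Fermat.Agent.Gateway.TorsionLevel
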